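/-
T1B / R2-BRANDT, work package W4 (AUX-UNIT), helper79: **the `q`-series identity in char `p`**.

With `Δ_δ := Δ(q^δ)` (`Dq R δ`), over any commutative ring
  `h0S R q = Δ_4² Δ_{2q} / (Δ_2 Δ_{4q}²)`                                  (`h0S_eq_Dq`),
and in characteristic `p` one has `Δ_{δ p} = Δ_δ ^ p` (`Dq_pow_char`).  Hence, for the auxiliary
function `D̄ = res_1(h0) = h0S κ p` of `Brandt36` and `Ū = h0S κ l`:
  `h0S κ p = (Δ_2 / Δ_4²)^(p-1)`                                           (`h0S_char_eq`),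
  **`qExpand κ l (h0S κ p) = h0S κ p * (h0S κ l)^(p-1)`**                   (`qExpand_h0S_char`),
i.e. `β̄(D̄) = ᾱ(D̄) · Ū^(p-1)`  (`betaC_h0S_char`, in the vocabulary of `Brandt27`).
-/
import Mathlib
import Fermat.Agent.T1B.TestElt79.Series
import Fermat.Agent.ES.KRON.KronCong24

set_option autoImplicit false

open ModularCurve HahnSeries

noncomputable section

namespace Fermat.Agent.T1B.AuxUnit79

open Fermat.Agent.IG.PR.Interface20 Fermat.Agent.RED.BASE.DeltaMem19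
open Fermat.Agent.T1B.TestElt79

section Formal

variable (R : Type*) [CommRing R]

/-- `Δ(q^δ)` as a formal series. -/
def Dq (δ : ℕ) [NeZero δ] : LaurentSeries R := qExpand R δ (deltaq R)

/-- `Δ(q^δ)⁻¹` as a formal series. -/
def DqInv (δ : ℕ) [NeZero δ] : LaurentSeries R := qExpand R δ (deltaqInv R)

theorem Dq_mul_DqInv (δ : ℕ) [NeZero δ] : Dq R δ * DqInv R δ = 1 := by
  rw [Dq, DqInv, ← map_mul, deltaq_mul_deltaqInv, map_one]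

theorem Dq_congr {M K : ℕ} [NeZero M] [NeZero K] (h : M = K) : Dq R M = Dq R K := by
  subst h; rfl

theorem DqInv_congr {M K : ℕ} [NeZero M] [NeZero K] (h : M = K) : DqInv R M = DqInv R K := by
  subst h; rfl

theorem uq_eq_Dq (δ : ℕ) [NeZero δ] : uq R δ = Dq R δ * deltaqInv R := rfl

theorem uqInv_eq_Dq (δ : ℕ) [NeZero δ] : uqInv δ R = deltaq R * DqInv R δ := rfl

theorem qExpand_Dq (l δ : ℕ) [NeZero l] [NeZero δ] :
    qExpand R l (Dq R δ) = Dq R (l * δ) := by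
  rw [Dq, Dq, qExpand_qExpand]

theorem qExpand_DqInv (l δ : ℕ) [NeZero l] [NeZero δ] :
    qExpand R l (DqInv R δ) = DqInv R (l * δ) := by
  rw [DqInv, DqInv, qExpand_qExpand]

/-- `h0S = Δ_4² Δ_{2q} / (Δ_2 Δ_{4q}²)`. -/
theorem h0S_eq_Dq (q : ℕ) [NeZero q] :
    h0S R q = Dq R 4 ^ 2 * Dq R (2 * q) * (DqInv R 2 * DqInv R (4 * q) ^ 2) := by
  have e := deltaq_mul_deltaqInv R
  unfold h0S
  rw [uq_eq_Dq, uq_eq_Dq, uqInv_eq_Dq, uqInv_eq_Dq]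
  calc (Dq R 4 * deltaqInv R) ^ 2 * (Dq R (2 * q) * deltaqInv R) *
        (deltaq R * DqInv R 2 * (deltaq R * DqInv R (4 * q)) ^ 2)
      = Dq R 4 ^ 2 * Dq R (2 * q) * (DqInv R 2 * DqInv R (4 * q) ^ 2) *
          (deltaq R * deltaqInv R) ^ 3 := by ring
    _ = Dq R 4 ^ 2 * Dq R (2 * q) * (DqInv R 2 * DqInv R (4 * q) ^ 2) := by
        rw [e, one_pow, mul_one]

end Formal

section CharP

variable (κ : Type*) [CommRing κ] (p : ℕ) [hp : Fact p.Prime] [CharP κ p]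

/-- `Δ(q)^p = Δ(q^p)` in characteristic `p`. -/
theorem deltaq_pow_char : deltaq κ ^ p = qExpand κ p (deltaq κ) := by
  rw [Fermat.Agent.ES.KRON.KronCong24.pow_char p (deltaq κ),
    Fermat.Agent.IG.AN.DeltaQuotExp19.coeffMap_deltaq]

/-- `Δ(q)^{-p} = Δ(q^p)⁻¹` in characteristic `p`. -/
theorem deltaqInv_pow_char : deltaqInv κ ^ p = qExpand κ p (deltaqInv κ) := by
  rw [Fermat.Agent.ES.KRON.KronCong24.pow_char p (deltaqInv κ),
    Fermat.Agent.IG.AN.DeltaQuotExp19.coeffMap_deltaqInv]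

/-- `Δ_δ ^ p = Δ_{δ p}` in characteristic `p`. -/
theorem Dq_pow_char (δ : ℕ) [NeZero δ] : Dq κ δ ^ p = Dq κ (δ * p) := by
  rw [Dq, ← map_pow, deltaq_pow_char, qExpand_qExpand, Dq]

theorem DqInv_pow_char (δ : ℕ) [NeZero δ] : DqInv κ δ ^ p = DqInv κ (δ * p) := by
  rw [DqInv, ← map_pow, deltaqInv_pow_char, qExpand_qExpand, DqInv]

/-- `h0S κ p = Δ_4² Δ_2^p / (Δ_2 Δ_4^{2p})` in characteristic `p`. -/
theorem h0S_char_eq' :
    h0S κ p = Dq κ 4 ^ 2 * Dq κ 2 ^ p * (DqInv κ 2 * (DqInv κ 4 ^ p) ^ 2) := by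
  rw [h0S_eq_Dq, ← Dq_pow_char κ p 2, ← DqInv_pow_char κ p 4]

/-- `h0S κ p = (Δ_2 / Δ_4²)^(p-1)` in characteristic `p`. -/
theorem h0S_char_eq : h0S κ p = (Dq κ 2 * DqInv κ 4 ^ 2) ^ (p - 1) := by
  obtain ⟨m, hm⟩ : ∃ m, p = m + 1 := ⟨p - 1, (Nat.succ_pred_eq_of_pos hp.out.pos).symm⟩
  rw [h0S_char_eq']
  have hc := Dq_mul_DqInv κ 2
  have hd := Dq_mul_DqInv κ 4
  rw [hm, Nat.add_sub_cancel]
  calc Dq κ 4 ^ 2 * Dq κ 2 ^ (m + 1) * (DqInv κ 2 * (DqInv κ 4 ^ (m + 1)) ^ 2)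
      = (Dq κ 4 * DqInv κ 4) ^ 2 * (Dq κ 2 * DqInv κ 2) * (Dq κ 2 * DqInv κ 4 ^ 2) ^ m := by ring
    _ = (Dq κ 2 * DqInv κ 4 ^ 2) ^ m := by rw [hc, hd]; ring

/-- **The `q`-series identity**: `D̄(q^l) = D̄(q) · Ū(q)^(p-1)` for `D̄ = h0S κ p`, `Ū = h0S κ l`. -/
theorem qExpand_h0S_char (l : ℕ) [NeZero l] :
    qExpand κ l (h0S κ p) = h0S κ p * h0S κ l ^ (p - 1) := by
  obtain ⟨m, hm⟩ : ∃ m, p = m + 1 := ⟨p - 1, (Nat.succ_pred_eq_of_pos hp.out.pos).symm⟩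
  have ha := Dq_mul_DqInv κ (2 * l)
  have hb := Dq_mul_DqInv κ (4 * l)
  have hc := Dq_mul_DqInv κ 2
  have hd := Dq_mul_DqInv κ 4
  -- the left-hand side
  have hL : qExpand κ l (h0S κ p) =
      Dq κ (4 * l) ^ 2 * Dq κ (2 * l) ^ p * (DqInv κ (2 * l) * (DqInv κ (4 * l) ^ p) ^ 2) := by
    rw [h0S_eq_Dq, map_mul, map_mul, map_mul, map_pow, map_pow, qExpand_Dq, qExpand_Dq,
      qExpand_DqInv, qExpand_DqInv]
    rw [Dq_congr κ (show l * 4 = 4 * l by ring), Dq_congr κ (show l * (2 * p) = 2 * l * p by ring),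
      DqInv_congr κ (show l * 2 = 2 * l by ring),
      DqInv_congr κ (show l * (4 * p) = 4 * l * p by ring),
      ← Dq_pow_char κ p (2 * l), ← DqInv_pow_char κ p (4 * l)]
  rw [hL, h0S_char_eq' κ p, h0S_eq_Dq κ l, hm, Nat.add_sub_cancel]
  calc Dq κ (4 * l) ^ 2 * Dq κ (2 * l) ^ (m + 1) *
        (DqInv κ (2 * l) * (DqInv κ (4 * l) ^ (m + 1)) ^ 2)
      = (Dq κ (4 * l) * DqInv κ (4 * l)) ^ 2 * (Dq κ (2 * l) * DqInv κ (2 * l)) *
          (Dq κ (2 * l) ^ m * DqInv κ (4 * l) ^ (2 * m)) := by ring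
    _ = Dq κ (2 * l) ^ m * DqInv κ (4 * l) ^ (2 * m) := by rw [ha, hb]; ring
    _ = (Dq κ 4 * DqInv κ 4) ^ (2 * m + 2) * (Dq κ 2 * DqInv κ 2) ^ (m + 1) *
          (Dq κ (2 * l) ^ m * DqInv κ (4 * l) ^ (2 * m)) := by rw [hc, hd]; ring
    _ = Dq κ 4 ^ 2 * Dq κ 2 ^ (m + 1) * (DqInv κ 2 * (DqInv κ 4 ^ (m + 1)) ^ 2) *
          (Dq κ 4 ^ 2 * Dq κ (2 * l) * (DqInv κ 2 * DqInv κ (4 * l) ^ 2)) ^ m := by ring

end CharP

end Fermat.Agent.T1B.AuxUnit79
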