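/-
T1B / R2-BRANDT, work package W4 (AUX-UNIT), helper79: **the cusp values of `t₄` do not depend on
the level** (thin wrapper around helper11's `CuspExpLevel11.cvT_eq_base`).

* `cvT_four_eq_base` : `cvT 4 8 L = cvT 4 8 4` for `4 ∣ L`;
* `cvT_four_eq`      : `cvT 4 8 L = cvT 4 8 L'` for `4 ∣ L`, `4 ∣ L'`;
* `cuspValues_four_eq` : the same for the SETS of finite cusp values.
-/
import Mathlib
import Fermat.Agent.RED.BASE.CuspExpLevel11

set_option autoImplicit false

noncomputable section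

namespace Fermat.Agent.T1B.AuxUnit79

open Fermat.Agent.X0
open scoped MatrixGroups
open Fermat.Agent.RED.BASE.Interface12 Fermat.Agent.RED.BASE.CuspExpMain11
open Fermat.Agent.RED.BASE.CuspExpLevel11 Fermat.Agent.RED.BASE.Hauptmodul12

/-- The cusp value function of `t₄` at level `L` (`4 ∣ L`) is the one of level `4`. -/
theorem cvT_four_eq_base (L : ℕ) [NeZero L] (h4 : 4 ∣ L) : cvT 4 8 L = cvT 4 8 4 :=
  cvT_eq_base 4 8 L h4 (tMem baseHyp_four)

/-- The cusp value functions of `t₄` at two levels divisible by `4` agree. -/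
theorem cvT_four_eq (L L' : ℕ) [NeZero L] [NeZero L'] (h4 : 4 ∣ L) (h4' : 4 ∣ L') :
    cvT 4 8 L = cvT 4 8 L' := by
  rw [cvT_four_eq_base L h4, cvT_four_eq_base L' h4']

/-- Set form: the finite cusp values of `t₄` are the same at all levels divisible by `4`. -/
theorem cuspValues_four_eq (L L' : ℕ) [NeZero L] [NeZero L'] (h4 : 4 ∣ L) (h4' : 4 ∣ L') :
    {c : Kbar | ∃ γ : SL(2, ℤ), cvT 4 8 L γ = some c} =
      {c : Kbar | ∃ γ : SL(2, ℤ), cvT 4 8 L' γ = some c} := by
  rw [cvT_four_eq L L' h4 h4']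

end Fermat.Agent.T1B.AuxUnit79
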