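/-
T1B / R2-BRANDT, work package W4 (AUX-UNIT), helper79: **the generic statements**.

Setting: `p` a prime, `A ⊆ ℚbar` a valuation subring over `p`, `κ = kA A` its residue field,
`L` a GOOD level (`4 ∣ L`, `p ∤ L`), `F = FF L` (char `0`), `Ft = ↥(modularFunctionFieldFullC κ L)`
(char `p`), `t = t₄ = tq · 4 8`.

* `exists_reduction` : a place reduction `r : Place ℚbar F → Place κ Ft` satisfying the Prelude
  contract `IsPlaceReductionModL A L r` AND (R1) for `t`: if `t̃` is regular at `r P` then `t` is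
  regular at `P` with value `c ∈ A`, and `t̃(r P) = c̄`;
* `pole_cases` : a pole of `j` in char `0` is a pole of `t` or a zero of `t - c`, `c` a finite cusp
  value (`cvT 4 8 4 γ = some c`; level independent, see `CuspLevel`);
* `ord_red_eq_zero` **(iii-gen)** : an `A`-integral `q`-series `y` of level `L` with nonzero reduction
  `ȳ ∈ Ft`, which in char `0` is a unit away from the cusps, has `ord_w ȳ = 0` at every place `w` of
  `Ft` where `t̃` is regular and is not the reduction of a finite cusp value;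
* `ord_red_eq_zero_of_regular` **(iii-gen), strong form** : if `y` is a unit (in char `0`) wherever
  `t` is regular, then `ord_w ȳ = 0` at EVERY place `w` of `Ft` where `t̃` is regular;
* `red_mem_of_regular` **(iv-gen)** : if in char `0` `y` is regular wherever `t` is, then `ȳ` is
  regular at every place `w` of `Ft` where `t̃` is.
-/
import Mathlib
import Fermat.Agent.ES.TOP.ModelAtFinal8
import Fermat.Agent.ES.RED.RedInst15
import Fermat.Agent.ES.RED.R2Global14
import Fermat.Agent.RED.CUSP.CuspFibre14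
import Fermat.Agent.T1B.AuxUnit79.CuspLevel

set_option autoImplicit false
set_option synthInstance.maxHeartbeats 400000
set_option linter.unusedSectionVars false
set_option linter.style.haveILetI false

open AlgebraicCurve ModularCurve HahnSeries
open scoped MatrixGroups

noncomputable section

namespace Fermat.Agent.T1B.AuxUnit79

open Fermat.Agent.X0 Fermat.Agent.X0.FF Fermat.Agent.RED.Interface4
open Fermat.Agent.RED.BASE.Interface12 Fermat.Agent.RED.BASE.EtaQuot12
open Fermat.Agent.RED.BASE.Hauptmodul12 Fermat.Agent.RED.BASE.CuspExpMain11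
open Fermat.Agent.RED.CUSP.CuspFibre14
open Fermat.Agent.ES.RED.Contract8 Fermat.Agent.ES.RED.TwoCharts8
open Fermat.Agent.ES.RED.PlaceValue13

/-! ### A `Finsupp` lemma -/

theorem mapDomain_apply_eq_sum79 {α β : Type*} (r : α → β) (D : α →₀ ℤ) (b : β)
    [DecidableEq β] :
    Finsupp.mapDomain r D b = ∑ a ∈ D.support, if r a = b then D a else 0 := by
  rw [Finsupp.mapDomain, Finsupp.sum_apply, Finsupp.sum]
  refine Finset.sum_congr rfl fun a _ => ?_
  rw [Finsupp.single_apply]

theorem mapDomain_apply_eq_zero79 {α β : Type*} (r : α → β) (D : α →₀ ℤ) (b : β)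
    (h : ∀ a, r a = b → D a = 0) : Finsupp.mapDomain r D b = 0 := by
  classical
  rw [mapDomain_apply_eq_sum79]
  refine Finset.sum_eq_zero fun a _ => ?_
  split_ifs with hab
  · exact h a hab
  · rfl

theorem mapDomain_apply_nonneg79 {α β : Type*} (r : α → β) (D : α →₀ ℤ) (b : β)
    (h : ∀ a, r a = b → 0 ≤ D a) : 0 ≤ Finsupp.mapDomain r D b := by
  classical
  rw [mapDomain_apply_eq_sum79]
  refine Finset.sum_nonneg fun a _ => ?_
  split_ifs with hab
  · exact h a hab
  · exact le_rfl

/-! ### Poles of `j` in characteristic `0` -/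

/-- `t₄` as an element of `FF L`, `4 ∣ L`. -/
abbrev tL (L : ℕ) [NeZero L] (h4 : 4 ∣ L) : FF L := tF L (tMem_of_dvd baseHyp_four h4)

/-- A pole of `j` is a pole of `t` or a zero of `t - c` for a finite cusp value `c`. -/
theorem pole_cases (L : ℕ) [NeZero L] (h4 : 4 ∣ L) (v : Place Kbar (FF L))
    (hj : v.ord (jF L) < 0) :
    v.ord (tL L h4) < 0 ∨
      ∃ (γ : SL(2, ℤ)) (c : Kbar), cvT 4 8 4 γ = some c ∧
        0 < v.ord (tL L h4 - algebraMap Kbar (FF L) c) := by
  obtain ⟨h, hshape⟩ := (cuspExp_four L h4 (tMem baseHyp_four)).1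
  have := Degree.finiteDimensional_adjoin L (realizeData L) (cuspData L)
  obtain ⟨g', hg'⟩ := CuspSurj.exists_cuspPlace_eq (CuspGood.good (cuspData L))
    (Degree.card_eq_finrank_adjoin L (realizeData L) (cuspData L)) v hj
  have hs' := hshape g'⁻¹
  rcases hcg : cvT 4 8 L g'⁻¹ with _ | c'
  · left
    rw [hcg] at hs'
    have hneg := ord_neg_of_shape_none (realizeData L) (cuspData L) 4 g'⁻¹ (tF L h) hs'
    rw [inv_inv, hg'] at hneg
    exact hneg
  · right
    rw [hcg] at hs'
    have hpos := ord_sub_pos_of_shape_some (realizeData L) (cuspData L) 4 g'⁻¹ (tF L h) c' hs'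
    rw [inv_inv, hg'] at hpos
    refine ⟨g'⁻¹, c', ?_, hpos⟩
    rw [← cvT_four_eq_base L h4]
    exact hcg

/-! ### The place reduction at a good level, with (R1) for `t` -/

section Reduction

variable (p : ℕ) (hp : p.Prime) (A : ValuationSubring Qbar) (hA : A.LiesOverPrime p)
variable (L : ℕ) [NeZero L] (h4 : 4 ∣ L) (hpL : ¬ p ∣ L)

/-- the function field of the special fibre at level `L`. -/
abbrev FtL : Type := ↥(modularFunctionFieldFullC (kA A) L)

include hp hA hpL in
/-- **The place reduction at the good level `L`**: the Prelude contract and (R1) for `t`. -/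
theorem exists_reduction :
    ∃ r : Place Qbar (FF L) → Place (kA A) (FtL A L),
      IsPlaceReductionModL A L r ∧
      ∀ (P : Place Qbar (FF L)) (tb : FtL A L),
        (tb : LaurentSeries (kA A)) = tq (kA A) 4 8 → tb ∈ (r P).toValuationSubring →
        ∃ c : ↥A, 0 < P.ord (tL L h4 - algebraMap Qbar (FF L) (c : Qbar)) ∧
          0 < (r P).ord (tb - algebraMap (kA A) (FtL A L) (IsLocalRing.residue ↥A c)) := by
  haveI : Fact p.Prime := ⟨hp⟩
  haveI : IsAlgClosed (kA A) := Fermat.Agent.ES.KRON.KronInst10.isAlgClosed_residueField A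
  obtain ⟨x, hx, T, c0, c1, hs0, peel0, peel1⟩ :=
    Fermat.Agent.ES.TOP.ModelAtFinal8.modelAt p hp A hA 4 8 baseHyp_four L h4 hpL
  have hmem : TMem 4 8 L := tMem_of_dvd baseHyp_four h4
  have hgen : TGenBase 4 8 := tGenBase' baseHyp_four
  have hCI := Fermat.Agent.ES.RED.RedInst15.chartInputs_both 4 8 L p hpL hmem hgen A hA T c0 c1
    hs0 peel0 peel1
  have hR : IsPlaceReductionModL A L T.r :=
    Fermat.Agent.ES.RED.RedInst15.isPlaceReductionModL_main 4 8 L p hpL hmem hgen A hA T c0 c1
      hs0 peel0 peel1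
  have hgent : IsGen (kA A) (T.S0.red T.S0.sB) := hCI.1.gent
  have hred : T.S0.red T.S0.sB =
      Fermat.Agent.ES.RED.SpecialGen25.tRes 4 8 L p hpL hmem hgen A hA :=
    Fermat.Agent.ES.RED.RedInst15.red_sB_eq_tRes 4 8 L p hpL hmem hgen A hA T.S0 c0 hs0
  refine ⟨T.r, hR, fun P tb htb hw => ?_⟩
  -- `tb` is the reduced coordinate of chart `0`
  have htb' : tb = T.S0.red T.S0.sB := by
    apply Subtype.ext
    rw [htb, hred, Fermat.Agent.ES.RED.SpecialInv25.coe_tRes_eq, coeffMap_tq]
  subst htb'
  -- `P` lies in chart `0`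
  have h0 : T.S0.InChart P := T.inChart0_of_red_mem hgent P hw
  have hs : T.S0.s ∈ P.toValuationSubring := T.S0.mem_place P h0 _ T.S0.s_mem
  set c : ↥A := T.S0.ev P h0 T.S0.sB with hc
  have hcv : ((c : ↥A) : Qbar) = valueHom hx P ⟨T.S0.s, hs⟩ := rfl
  refine ⟨c, ?_, ?_⟩
  · -- value of `t` at `P`
    have h1 := (valueHom_eq_iff hx P ⟨T.S0.s, hs⟩ (c : Qbar)).mp hcv.symm
    have hs0' : T.S0.s = tL L h4 := hs0
    rw [← hs0']
    rcases h1 with h1 | h1
    · exfalso
      have htr : Transcendental Qbar T.S0.s := hCI.1.gen.transcendental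
      apply htr
      have : T.S0.s = algebraMap Qbar (FF L) (c : Qbar) := h1
      rw [this]
      exact isAlgebraic_algebraMap _
    · exact h1
  · -- value of `t̃` at `r P`
    obtain ⟨hmem', hv⟩ := Fermat.Agent.ES.RED.R2Global14.valueHom_r0 T hgent P h0 T.S0.sB
    rw [ChartSpec.chi_apply] at hv
    have h1 := (valueHom_eq_iff hgent (T.r P) ⟨T.S0.red T.S0.sB, hmem'⟩ _).mp hv
    rcases h1 with h1 | h1
    · exfalso
      apply T.tr0
      have : T.S0.red T.S0.sB = algebraMap (kA A) (FtL A L) (resA A c) := h1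
      rw [this]
      exact isAlgebraic_algebraMap _
    · exact h1

end Reduction

/-! ### (iii-gen) and (iv-gen) -/

section Generic

variable (p : ℕ) (hp : p.Prime) (A : ValuationSubring Qbar) (hA : A.LiesOverPrime p)
variable (L : ℕ) [NeZero L] (h4 : 4 ∣ L) (hpL : ¬ p ∣ L)

include hp hA hpL h4 in
/-- **(iii-gen)**: a modular unit of the good level `L` with `A`-integral `q`-expansion and nonzero
reduction `ȳ ∈ Ft` has `ord_w ȳ = 0` at every place `w` of the special fibre where `t̃` is regular
and does not take the reduction of a finite cusp value. -/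
theorem ord_red_eq_zero (y : LaurentSeries ↥A)
    (hy : coeffMap A.subtype y ∈ modularFunctionFieldBar L)
    (hyk : coeffMap (IsLocalRing.residue ↥A) y ∈ modularFunctionFieldFullC (kA A) L)
    (hne : coeffMap (IsLocalRing.residue ↥A) y ≠ 0)
    (hunit : ∀ P : Place Qbar (FF L), 0 ≤ P.ord (jF L) →
      P.ord (⟨coeffMap A.subtype y, hy⟩ : FF L) = 0)
    (w : Place (kA A) (FtL A L)) (tb : FtL A L)
    (htb : (tb : LaurentSeries (kA A)) = tq (kA A) 4 8) (hw : tb ∈ w.toValuationSubring)
    (hwc : ∀ (γ : SL(2, ℤ)) (c : ↥A), cvT 4 8 4 γ = some (c : Qbar) →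
      w.ord (tb - algebraMap (kA A) (FtL A L) (IsLocalRing.residue ↥A c)) ≤ 0) :
    w.ord (⟨coeffMap (IsLocalRing.residue ↥A) y, hyk⟩ : FtL A L) = 0 := by
  obtain ⟨r, hR, hR1⟩ := exists_reduction p hp A hA L h4 hpL
  have hPD : HasPrincipalDivisors Qbar (FF L) :=
    Fermat.Agent.RED.TOP.FbarFacts20.hasPrincipalDivisors_bar L
  have hf0 : (⟨coeffMap A.subtype y, hy⟩ : FF L) ≠ 0 := by
    intro h
    apply hne
    have h1 : coeffMap A.subtype y = 0 := congrArg Subtype.val h
    have h2 : y = 0 := by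
      have hinj : Function.Injective (coeffMap (A.subtype : ↥A →+* Qbar)) :=
        Fermat.Agent.X0.CuspGood.coeffMap_injective _ Subtype.val_injective
      exact hinj (by rw [h1, map_zero])
    rw [h2, map_zero]
  obtain ⟨D, hD, -⟩ := hPD.exists_divisor _ hf0
  have key := hR.2 y hy hyk hne D hD w
  rw [← key]
  apply mapDomain_apply_eq_zero79
  intro P hP
  subst hP
  rw [hD]
  apply hunit
  by_contra hj
  rw [not_le] at hj
  obtain ⟨c, hc1, hc2⟩ := hR1 P tb htb hw
  rcases pole_cases L h4 P hj with hpole | ⟨γ, c', hγ, hpos⟩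
  · -- `t` is regular at `P`
    have h1 : tL L h4 - algebraMap Qbar (FF L) (c : Qbar) ∈ P.toValuationSubring :=
      (ffp_mem_iff_ord_nonneg P).mpr hc1.le
    have h2 : algebraMap Qbar (FF L) (c : Qbar) ∈ P.toValuationSubring :=
      (ffp_mem_iff_ord_nonneg P).mpr (le_of_eq (ffp_ord_algebraMap P _).symm)
    have h3 := P.toValuationSubring.add_mem _ _ h1 h2
    rw [sub_add_cancel] at h3
    have := (ffp_mem_iff_ord_nonneg P).mp h3
    omega
  · have hcc : (c : Qbar) = c' := eq_of_ord_sub_pos P (tL L h4) _ _ hc1 hpos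
    have := hwc γ c (by rw [hcc]; exact hγ)
    omega

include hp hA hpL h4 in
/-- **(iii-gen), strong form**: if in char `0` the function with `A`-integral `q`-expansion `y` is
a unit wherever `t` is regular (cusps with finite `t`-value included), then `ord_w ȳ = 0` at EVERY
place `w` of the special fibre where `t̃` is regular. -/
theorem ord_red_eq_zero_of_regular (y : LaurentSeries ↥A)
    (hy : coeffMap A.subtype y ∈ modularFunctionFieldBar L)
    (hyk : coeffMap (IsLocalRing.residue ↥A) y ∈ modularFunctionFieldFullC (kA A) L)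
    (hne : coeffMap (IsLocalRing.residue ↥A) y ≠ 0)
    (hunit : ∀ P : Place Qbar (FF L), tL L h4 ∈ P.toValuationSubring →
      P.ord (⟨coeffMap A.subtype y, hy⟩ : FF L) = 0)
    (w : Place (kA A) (FtL A L)) (tb : FtL A L)
    (htb : (tb : LaurentSeries (kA A)) = tq (kA A) 4 8) (hw : tb ∈ w.toValuationSubring) :
    w.ord (⟨coeffMap (IsLocalRing.residue ↥A) y, hyk⟩ : FtL A L) = 0 := by
  obtain ⟨r, hR, hR1⟩ := exists_reduction p hp A hA L h4 hpL
  have hPD : HasPrincipalDivisors Qbar (FF L) :=
    Fermat.Agent.RED.TOP.FbarFacts20.hasPrincipalDivisors_bar L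
  have hf0 : (⟨coeffMap A.subtype y, hy⟩ : FF L) ≠ 0 := by
    intro h
    apply hne
    have h1 : coeffMap A.subtype y = 0 := congrArg Subtype.val h
    have h2 : y = 0 := by
      have hinj : Function.Injective (coeffMap (A.subtype : ↥A →+* Qbar)) :=
        Fermat.Agent.X0.CuspGood.coeffMap_injective _ Subtype.val_injective
      exact hinj (by rw [h1, map_zero])
    rw [h2, map_zero]
  obtain ⟨D, hD, -⟩ := hPD.exists_divisor _ hf0
  have key := hR.2 y hy hyk hne D hD w
  rw [← key]
  apply mapDomain_apply_eq_zero79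
  intro P hP
  subst hP
  rw [hD]
  apply hunit
  obtain ⟨c, hc1, -⟩ := hR1 P tb htb hw
  have h1 : tL L h4 - algebraMap Qbar (FF L) (c : Qbar) ∈ P.toValuationSubring :=
    (ffp_mem_iff_ord_nonneg P).mpr hc1.le
  have h2 : algebraMap Qbar (FF L) (c : Qbar) ∈ P.toValuationSubring :=
    (ffp_mem_iff_ord_nonneg P).mpr (le_of_eq (ffp_ord_algebraMap P _).symm)
  have h3 := P.toValuationSubring.add_mem _ _ h1 h2
  rwa [sub_add_cancel] at h3

include hp hA hpL h4 in
/-- **(iv-gen)**: if in char `0` the function with `A`-integral `q`-expansion `y` is regular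
wherever `t` is, then its reduction `ȳ` is regular wherever `t̃` is. -/
theorem red_mem_of_regular (y : LaurentSeries ↥A)
    (hy : coeffMap A.subtype y ∈ modularFunctionFieldBar L)
    (hyk : coeffMap (IsLocalRing.residue ↥A) y ∈ modularFunctionFieldFullC (kA A) L)
    (hne : coeffMap (IsLocalRing.residue ↥A) y ≠ 0)
    (hreg : ∀ P : Place Qbar (FF L), tL L h4 ∈ P.toValuationSubring →
      (⟨coeffMap A.subtype y, hy⟩ : FF L) ∈ P.toValuationSubring)
    (w : Place (kA A) (FtL A L)) (tb : FtL A L)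
    (htb : (tb : LaurentSeries (kA A)) = tq (kA A) 4 8) (hw : tb ∈ w.toValuationSubring) :
    (⟨coeffMap (IsLocalRing.residue ↥A) y, hyk⟩ : FtL A L) ∈ w.toValuationSubring := by
  obtain ⟨r, hR, hR1⟩ := exists_reduction p hp A hA L h4 hpL
  have hPD : HasPrincipalDivisors Qbar (FF L) :=
    Fermat.Agent.RED.TOP.FbarFacts20.hasPrincipalDivisors_bar L
  have hf0 : (⟨coeffMap A.subtype y, hy⟩ : FF L) ≠ 0 := by
    intro h
    apply hne
    have h1 : coeffMap A.subtype y = 0 := congrArg Subtype.val h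
    have h2 : y = 0 := by
      have hinj : Function.Injective (coeffMap (A.subtype : ↥A →+* Qbar)) :=
        Fermat.Agent.X0.CuspGood.coeffMap_injective _ Subtype.val_injective
      exact hinj (by rw [h1, map_zero])
    rw [h2, map_zero]
  obtain ⟨D, hD, -⟩ := hPD.exists_divisor _ hf0
  have key := hR.2 y hy hyk hne D hD w
  rw [ffp_mem_iff_ord_nonneg, ← key]
  apply mapDomain_apply_nonneg79
  intro P hP
  subst hP
  rw [hD, ← ffp_mem_iff_ord_nonneg]
  apply hreg
  obtain ⟨c, hc1, -⟩ := hR1 P tb htb hw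
  have h1 : tL L h4 - algebraMap Qbar (FF L) (c : Qbar) ∈ P.toValuationSubring :=
    (ffp_mem_iff_ord_nonneg P).mpr hc1.le
  have h2 : algebraMap Qbar (FF L) (c : Qbar) ∈ P.toValuationSubring :=
    (ffp_mem_iff_ord_nonneg P).mpr (le_of_eq (ffp_ord_algebraMap P _).symm)
  have h3 := P.toValuationSubring.add_mem _ _ h1 h2
  rwa [sub_add_cancel] at h3

end Generic

end Fermat.Agent.T1B.AuxUnit79
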