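/-
T1B / R2-BRANDT, work package W4 (AUX-UNIT), helper79: **the two instances (iii), (iv)**.

Setting: `p` a prime, `A ⊆ ℚbar` over `p`, `κ = kA A`, `l ≠ 2` a prime, `L` a level with `4 l ∣ L`,
`p ∤ L` (e.g. `L = M' l`, `4 ∣ M'`), `Ft = ↥(modularFunctionFieldFullC κ L)`, `t̃ = tq κ 4 8`.

* `ord_h0S_eq_zero` **(iii)** : `Ū = h0S κ l = U_4² U_{2l} / (U_2 U_{4l}²)` (the reduction of the
  modular unit `U = TestElt79.h0F L l`) has `ord_w Ū = 0` at EVERY place `w` of `Ft` at which `t̃`
  is regular.  (No condition on the cusp values is needed: in char `0`, `h0F` is a unit wherever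
  `t` is finite, `TestElt79.ord_h0F_eq_zero`.)
* `qExpand_tq_mem` **(iv)** : `t̃(q^l) = qExpand κ l (tq κ 4 8)` is regular at every place `w` of
  `Ft` at which `t̃` is regular.

Both are stated for ARBITRARY elements `tb u z : Ft` with the prescribed `q`-expansions, so that
they apply verbatim to `alphaC κ M' l t̃`, `betaC κ M' l t̃` (`Brandt27.coe_alphaC`, `coe_betaC`).
-/
import Mathlib
import Fermat.Agent.T1B.AuxUnit79.Core
import Fermat.Agent.T1B.TestElt79.EtaTest
import Fermat.Agent.T1B.TestElt79.Series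
import Fermat.Agent.ES.RED.RedMem16
import Fermat.Agent.ES.N34.ModEqBar23

set_option autoImplicit false
set_option synthInstance.maxHeartbeats 400000
set_option linter.unusedSectionVars false
set_option linter.style.haveILetI false

open AlgebraicCurve ModularCurve HahnSeries
open scoped MatrixGroups

noncomputable section

namespace Fermat.Agent.T1B.AuxUnit79

open Fermat.Agent.X0 Fermat.Agent.X0.FF Fermat.Agent.RED.Interface4
open Fermat.Agent.RED.BASE.Interface12 Fermat.Agent.RED.BASE.EtaQuot12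
open Fermat.Agent.RED.BASE.Hauptmodul12 Fermat.Agent.RED.BASE.NoElliptic14
open Fermat.Agent.ES.RED.Contract8
open Fermat.Agent.T1B.TestElt79
open Fermat.Agent.IG.PR.Interface20

section Instances

variable (p : ℕ) (hp : p.Prime) (A : ValuationSubring Qbar) (hA : A.LiesOverPrime p)
variable (L l : ℕ) [NeZero L] [NeZero l] (hl : l.Prime) (hl2 : l ≠ 2) (h : 4 * l ∣ L)
variable (hpL : ¬ p ∣ L)

theorem four_dvd_of_four_mul_dvd {L l : ℕ} (h : 4 * l ∣ L) : 4 ∣ L := (Dvd.intro l rfl).trans h

/-! ### (iii) -/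

include h in
/-- the `A`-integral `q`-expansion of `U = h0F L l`. -/
theorem h0S_mem_bar : coeffMap A.subtype (h0S ↥A l) ∈ modularFunctionFieldBar L := by
  rw [coeffMap_h0S, ← coe_h0F L l h]
  exact (h0F L l h).2

include hp hA hpL h in
/-- `Ū = h0S κ l` lies in the function field of the special fibre. -/
theorem h0S_mem_fullC : h0S (kA A) l ∈ modularFunctionFieldFullC (kA A) L := by
  haveI : Fact p.Prime := ⟨hp⟩
  have := Fermat.Agent.ES.RED.RedMem16.coeffMap_residue_mem_fullC A p hA hpL (h0S ↥A l)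
    (h0S_mem_bar A L l h)
  rwa [coeffMap_h0S] at this

theorem h0S_ne_zero79 (K : Type*) [Field K] : h0S K l ≠ 0 :=
  left_ne_zero_of_mul_eq_one (h0S_mul_h0Sinv K l)

include hp hA hpL h hl hl2 in
/-- **(iii)**: `Ū = h0S κ l` is a unit at every place of the special fibre of level `L` at which
`t̃` is regular. -/
theorem ord_h0S_eq_zero (w : Place (kA A) (FtL A L)) (tb u : FtL A L)
    (htb : (tb : LaurentSeries (kA A)) = tq (kA A) 4 8) (hw : tb ∈ w.toValuationSubring)
    (hu : (u : LaurentSeries (kA A)) = h0S (kA A) l) : w.ord u = 0 := by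
  have h4 : 4 ∣ L := four_dvd_of_four_mul_dvd h
  have hy := h0S_mem_bar A L l h
  have hyk : coeffMap (IsLocalRing.residue ↥A) (h0S ↥A l) ∈
      modularFunctionFieldFullC (kA A) L := by
    rw [coeffMap_h0S]
    exact h0S_mem_fullC p hp A hA L l h hpL
  have hne : coeffMap (IsLocalRing.residue ↥A) (h0S ↥A l) ≠ 0 := by
    rw [coeffMap_h0S]
    exact h0S_ne_zero79 l (kA A)
  have hunit : ∀ P : Place Qbar (FF L), tL L h4 ∈ P.toValuationSubring →
      P.ord (⟨coeffMap A.subtype (h0S ↥A l), hy⟩ : FF L) = 0 := by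
    intro P hP
    have he : (⟨coeffMap A.subtype (h0S ↥A l), hy⟩ : FF L) = h0F L l h := by
      apply Subtype.ext
      rw [coe_h0F]
      exact coeffMap_h0S l A.subtype
    rw [he]
    exact ord_h0F_eq_zero L l h hl hl2 (tMem_of_dvd baseHyp_four h4)
      (nuTwo_eq_zero_of_four_dvd h4) (nuThree_eq_zero_of_four_dvd h4) P hP
  have key := ord_red_eq_zero_of_regular p hp A hA L h4 hpL (h0S ↥A l) hy hyk hne hunit w tb htb hw
  have hu' : u = ⟨coeffMap (IsLocalRing.residue ↥A) (h0S ↥A l), hyk⟩ := by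
    apply Subtype.ext
    rw [hu]
    exact (coeffMap_h0S l (IsLocalRing.residue ↥A)).symm
  rw [hu']
  exact key

/-! ### (iv) -/

include h in
/-- `t(q^l) ∈ FF L`. -/
theorem qExpand_tq_mem_bar :
    coeffMap A.subtype (qExpand ↥A l (tq ↥A 4 8)) ∈ modularFunctionFieldBar L := by
  rw [ModularCurve.coeffMap_qExpand, coeffMap_tq]
  have h1 := (Fermat.Agent.ES.N34.ModEqBar23.bF l (tMem baseHyp_four)).2
  rw [Fermat.Agent.ES.N34.ModEqBar23.coe_bF] at h1
  exact fbar_mono h h1

theorem tq_ne_zero79 (K : Type*) [Field K] : tq K 4 8 ≠ 0 := by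
  intro h0
  have := tq_pow_mul_uq K 4 8 (by norm_num)
  rw [h0] at this
  simp at this

include hp hA hpL h hl hl2 in
/-- **(iv)**: `t̃(q^l)` is regular at every place of the special fibre of level `L` at which `t̃`
is regular. -/
theorem qExpand_tq_mem (w : Place (kA A) (FtL A L)) (tb z : FtL A L)
    (htb : (tb : LaurentSeries (kA A)) = tq (kA A) 4 8) (hw : tb ∈ w.toValuationSubring)
    (hz : (z : LaurentSeries (kA A)) = qExpand (kA A) l (tq (kA A) 4 8)) :
    z ∈ w.toValuationSubring := by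
  haveI : Fact p.Prime := ⟨hp⟩
  have h4 : 4 ∣ L := four_dvd_of_four_mul_dvd h
  have hy := qExpand_tq_mem_bar A L l h
  have hcm : coeffMap (IsLocalRing.residue ↥A) (qExpand ↥A l (tq ↥A 4 8)) =
      qExpand (kA A) l (tq (kA A) 4 8) := by
    rw [ModularCurve.coeffMap_qExpand, coeffMap_tq]
  have hyk : coeffMap (IsLocalRing.residue ↥A) (qExpand ↥A l (tq ↥A 4 8)) ∈
      modularFunctionFieldFullC (kA A) L :=
    Fermat.Agent.ES.RED.RedMem16.coeffMap_residue_mem_fullC A p hA hpL _ hy
  have hne : coeffMap (IsLocalRing.residue ↥A) (qExpand ↥A l (tq ↥A 4 8)) ≠ 0 := by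
    rw [hcm]
    intro h0
    exact tq_ne_zero79 (kA A) ((map_eq_zero (qExpand (kA A) l)).mp h0)
  have hl4 : ¬ l ∣ 4 := by
    intro hd
    have h2 : l ∣ 2 := by
      have : l ∣ 2 * 2 := by simpa using hd
      rcases (Nat.Prime.dvd_mul hl).mp this with h' | h' <;> exact h'
    exact hl2 ((Nat.prime_dvd_prime_iff_eq hl Nat.prime_two).mp h2)
  have hreg : ∀ P : Place Qbar (FF L), tL L h4 ∈ P.toValuationSubring →
      (⟨coeffMap A.subtype (qExpand ↥A l (tq ↥A 4 8)), hy⟩ : FF L) ∈ P.toValuationSubring := by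
    intro P hP
    have hint0 : IsIntegral (Algebra.adjoin Kbar {tK 4 8}) (qExpand Kbar l (tK 4 8)) :=
      Fermat.Agent.ES.N34.ModEqBar23.isIntegral_qExpand_tK l baseHyp_four hl hl4
    have hint : IsIntegral (polyRing Kbar (tL L h4))
        (⟨coeffMap A.subtype (qExpand ↥A l (tq ↥A 4 8)), hy⟩ : FF L) := by
      apply Fermat.Agent.RED.PUR.PlaceIntegral3.isIntegral_polyRing_of_map (K := Kbar)
        (F' := LaurentSeries Kbar)
      have e1 : algebraMap (FF L) (LaurentSeries Kbar)
          (⟨coeffMap A.subtype (qExpand ↥A l (tq ↥A 4 8)), hy⟩ : FF L) =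
          qExpand Kbar l (tK 4 8) := by
        show coeffMap A.subtype (qExpand ↥A l (tq ↥A 4 8)) = _
        rw [ModularCurve.coeffMap_qExpand, coeffMap_tq]
      rw [e1]
      exact hint0
    have hA' : ∀ a : polyRing Kbar (tL L h4),
        algebraMap (polyRing Kbar (tL L h4)) (FF L) a ∈ P.toValuationSubring := by
      rintro ⟨a, ha⟩
      show a ∈ P.toValuationSubring
      induction ha using Algebra.adjoin_induction with
      | mem y hy =>
        rw [Set.mem_singleton_iff] at hy
        rw [hy]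
        exact hP
      | algebraMap c => exact P.algebraMap_mem' c
      | add y z _ _ hy hz => exact add_mem hy hz
      | mul y z _ _ hy hz => exact mul_mem hy hz
    exact Fermat.Agent.X0.FFDedekind.mem_of_isIntegral_of_algebraMap_mem P hA' hint
  have key := red_mem_of_regular p hp A hA L h4 hpL _ hy hyk hne hreg w tb htb hw
  have hz' : z = ⟨coeffMap (IsLocalRing.residue ↥A) (qExpand ↥A l (tq ↥A 4 8)), hyk⟩ := by
    apply Subtype.ext
    rw [hz]
    exact hcm.symm
  rw [hz']
  exact key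

end Instances

end Fermat.Agent.T1B.AuxUnit79
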