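/-
T1B / R2-BRANDT, work package W4 (AUX-UNIT), helper79: **the inputs `hQ`, `hReg` of
`Brandt36.node_of_aux` / `brandtW_one_of_aux` in the vocabulary of `Brandt27`** (`alphaC`, `betaC`).

Setting: `p` a prime, `A ⊆ ℚbar` over `p`, `κ = kA A`, `4 ∣ M'`, `l ≠ 2` a prime, `p ∤ M' l`;
`k₁ = ↥(modularFunctionFieldFullC κ M')`, `k₁' = ↥(modularFunctionFieldFullC κ (M' l))`,
`ᾱ = alphaC κ M' l` (inclusion), `β̄ = betaC κ M' l` (`q ↦ q^l`); `t̄ ∈ k₁` with `q`-expansion
`tq κ 4 8`; `D̄ ∈ k₁` with `q`-expansion `h0S κ p` (`= res_1(h0)`).  For every place `w` of `k₁'` at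
which `ᾱ t̄` is regular:

* `betaC_eq_alphaC_mul`      : `β̄ D̄ = ᾱ D̄ · Ū^(p-1)`, `Ū ∈ k₁'` any element with expansion `h0S κ l`;
* `ord_betaC_eq_ord_alphaC`  **(hQ)**   : `ord_w (β̄ D̄) = ord_w (ᾱ D̄)`;
* `betaC_t_mem`              **(hReg)** : `β̄ t̄` is regular at `w`;
* `reg_restrict_betaC`       : the same in `restrictAlong` form
  (`t̄ ∈ O_{w|ᾱ} → t̄ ∈ O_{w|β̄}`).
-/
import Mathlib
import Fermat.Agent.T1B.AuxUnit79.Unit
import Fermat.Agent.T1B.AuxUnit79.Frob
import Fermat.Agent.T1B.Brandt27.DegreeC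

set_option autoImplicit false
set_option synthInstance.maxHeartbeats 400000
set_option linter.unusedSectionVars false
set_option linter.style.haveILetI false

open AlgebraicCurve ModularCurve HahnSeries

noncomputable section

namespace Fermat.Agent.T1B.AuxUnit79

open Fermat.Agent.X0 Fermat.Agent.X0.FF Fermat.Agent.RED.Interface4
open Fermat.Agent.RED.BASE.EtaQuot12
open Fermat.Agent.ES.RED.Contract8
open Fermat.Agent.T1B.TestElt79 Fermat.Agent.T1B.Brandt27

/-! ### the identity `β̄ D̄ = ᾱ D̄ · Ū^(p-1)` -/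

/-- `β̄ D̄ = ᾱ D̄ · Ū^(p-1)` for `D̄` with expansion `h0S κ p` and `Ū` with expansion `h0S κ l`. -/
theorem betaC_eq_alphaC_mul (κ : Type) [Field κ] (p : ℕ) [Fact p.Prime] [CharP κ p]
    (N l : ℕ) [NeZero N] [NeZero l]
    (D : ↥(modularFunctionFieldFullC κ N)) (hD : (D : LaurentSeries κ) = h0S κ p)
    (U : ↥(modularFunctionFieldFullC κ (N * l))) (hU : (U : LaurentSeries κ) = h0S κ l) :
    betaC κ N l D = alphaC κ N l D * U ^ (p - 1) := by
  apply Subtype.ext
  rw [coe_betaC, hD, qExpand_h0S_char]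
  show _ = ((alphaC κ N l D : ↥(modularFunctionFieldFullC κ (N * l))) : LaurentSeries κ) *
    ((U ^ (p - 1) : ↥(modularFunctionFieldFullC κ (N * l))) : LaurentSeries κ)
  rw [coe_alphaC, hD]
  have : ((U ^ (p - 1) : ↥(modularFunctionFieldFullC κ (N * l))) : LaurentSeries κ) =
      (U : LaurentSeries κ) ^ (p - 1) := rfl
  rw [this, hU]

/-- membership in the valuation ring of `w|φ` (generic; `Iff.rfl`). -/
theorem mem_restrictAlong_iff79 {K F F' : Type*} [Field K] [Field F] [Field F'] [Algebra K F]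
    [Algebra K F'] (φ : F →ₐ[K] F') (hφ : φ.toRingHom.IsIntegral) (w : Place K F') (a : F) :
    a ∈ (w.restrictAlong φ hφ).toValuationSubring ↔ φ a ∈ w.toValuationSubring :=
  Iff.rfl

section Inputs

variable (p : ℕ) [hp : Fact p.Prime] (A : ValuationSubring Qbar) (hA : A.LiesOverPrime p)
variable (M' l : ℕ) [NeZero M'] [NeZero l] (h4 : 4 ∣ M') (hl : l.Prime) (hl2 : l ≠ 2)
variable (hpL : ¬ p ∣ M' * l)

theorem four_mul_dvd_mul {M' l : ℕ} (h4 : 4 ∣ M') : 4 * l ∣ M' * l := Nat.mul_dvd_mul_right h4 l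

include hA hpL h4 hl hl2 in
/-- **(hQ)**: `ord_w (β̄ D̄) = ord_w (ᾱ D̄)` at every place `w` of level `M' l` at which `ᾱ t̄` is
regular. -/
theorem ord_betaC_eq_ord_alphaC
    (w : Place (kA A) ↥(modularFunctionFieldFullC (kA A) (M' * l)))
    (tbar : ↥(modularFunctionFieldFullC (kA A) M'))
    (ht : (tbar : LaurentSeries (kA A)) = tq (kA A) 4 8)
    (hw : alphaC (kA A) M' l tbar ∈ w.toValuationSubring)
    (D : ↥(modularFunctionFieldFullC (kA A) M'))
    (hD : (D : LaurentSeries (kA A)) = h0S (kA A) p) :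
    w.ord (betaC (kA A) M' l D) = w.ord (alphaC (kA A) M' l D) := by
  haveI : CharP (kA A) p := Fermat.Agent.ES.KRON.KronInst10.charP_residueField A hp.out hA
  have h : 4 * l ∣ M' * l := four_mul_dvd_mul h4
  have hmem : h0S (kA A) l ∈ modularFunctionFieldFullC (kA A) (M' * l) :=
    h0S_mem_fullC p hp.out A hA (M' * l) l h hpL
  obtain ⟨U, hU⟩ : ∃ U : ↥(modularFunctionFieldFullC (kA A) (M' * l)),
      (U : LaurentSeries (kA A)) = h0S (kA A) l := ⟨⟨_, hmem⟩, rfl⟩
  have e1 : ((alphaC (kA A) M' l tbar : ↥(modularFunctionFieldFullC (kA A) (M' * l))) :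
      LaurentSeries (kA A)) = tq (kA A) 4 8 := by rw [coe_alphaC, ht]
  have hU0 : w.ord U = 0 :=
    ord_h0S_eq_zero p hp.out A hA (M' * l) l hl hl2 h hpL w (alphaC (kA A) M' l tbar) U e1 hw hU
  have hUne : U ≠ 0 := by
    intro h0
    have h1 : (U : LaurentSeries (kA A)) = 0 := by rw [h0]; rfl
    rw [hU] at h1
    exact h0S_ne_zero79 l (kA A) h1
  have hDne : alphaC (kA A) M' l D ≠ 0 := by
    intro h0
    have h1 : ((alphaC (kA A) M' l D : ↥(modularFunctionFieldFullC (kA A) (M' * l))) :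
        LaurentSeries (kA A)) = 0 := by rw [h0]; rfl
    rw [coe_alphaC, hD] at h1
    exact h0S_ne_zero79 p (kA A) h1
  have hmul := betaC_eq_alphaC_mul (kA A) p M' l D hD U hU
  rw [hmul, w.ord_mul hDne (pow_ne_zero _ hUne), Fermat.Agent.X0.FF.ord_pow, hU0, mul_zero,
    add_zero]

include hA hpL h4 hl hl2 in
/-- **(hReg)**: `β̄ t̄` is regular at every place `w` of level `M' l` at which `ᾱ t̄` is. -/
theorem betaC_t_mem
    (w : Place (kA A) ↥(modularFunctionFieldFullC (kA A) (M' * l)))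
    (tbar : ↥(modularFunctionFieldFullC (kA A) M'))
    (ht : (tbar : LaurentSeries (kA A)) = tq (kA A) 4 8)
    (hw : alphaC (kA A) M' l tbar ∈ w.toValuationSubring) :
    betaC (kA A) M' l tbar ∈ w.toValuationSubring := by
  have e1 : ((alphaC (kA A) M' l tbar : ↥(modularFunctionFieldFullC (kA A) (M' * l))) :
      LaurentSeries (kA A)) = tq (kA A) 4 8 := by rw [coe_alphaC, ht]
  have e2 : ((betaC (kA A) M' l tbar : ↥(modularFunctionFieldFullC (kA A) (M' * l))) :
      LaurentSeries (kA A)) = qExpand (kA A) l (tq (kA A) 4 8) := by rw [coe_betaC, ht]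
  exact qExpand_tq_mem p hp.out A hA (M' * l) l hl hl2 (four_mul_dvd_mul h4) hpL w
    (alphaC (kA A) M' l tbar) (betaC (kA A) M' l tbar) e1 hw e2

include hA hpL h4 hl hl2 in
/-- **(hReg)**, `restrictAlong` form: if `t̄` is regular at `w|ᾱ` then it is regular at `w|β̄`. -/
theorem reg_restrict_betaC
    (hα : (alphaC (kA A) M' l).toRingHom.IsIntegral)
    (hβ : (betaC (kA A) M' l).toRingHom.IsIntegral)
    (w : Place (kA A) ↥(modularFunctionFieldFullC (kA A) (M' * l)))
    (tbar : ↥(modularFunctionFieldFullC (kA A) M'))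
    (ht : (tbar : LaurentSeries (kA A)) = tq (kA A) 4 8)
    (hw : tbar ∈ (w.restrictAlong (alphaC (kA A) M' l) hα).toValuationSubring) :
    tbar ∈ (w.restrictAlong (betaC (kA A) M' l) hβ).toValuationSubring :=
  (mem_restrictAlong_iff79 (betaC (kA A) M' l) hβ w tbar).mpr
    (betaC_t_mem p A hA M' l h4 hl hl2 hpL w tbar ht
      ((mem_restrictAlong_iff79 (alphaC (kA A) M' l) hα w tbar).mp hw))

end Inputs

end Fermat.Agent.T1B.AuxUnit79
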