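/-
T1B / R2-BRANDT, work package W4 (AUX-UNIT), helper79: **(iii) in the shape asked by helper36**
(for helper14's assembler `Brandt14/AuxAsm`, clause (b)):

  `ord_U_eq_zero : t̄ ∈ O_w → w.ord Ū = 0`

for every place `w` of `modularFunctionFieldFullC κ (M' l)`, `κ = IsLocalRing.ResidueField ↥A`,
`Ū` ANY element with `q`-expansion `h0S κ l`.  The hypothesis `hw` is literally
`AuxUnit29.RegT A (M' * l) ht' w` unfolded (no import of `AuxUnit29` needed).
-/
import Mathlib
import Fermat.Agent.T1B.AuxUnit79.Unit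

set_option autoImplicit false
set_option synthInstance.maxHeartbeats 400000
set_option linter.unusedSectionVars false

open AlgebraicCurve ModularCurve HahnSeries

noncomputable section

namespace Fermat.Agent.T1B.AuxUnit79

open Fermat.Agent.RED.Interface4 Fermat.Agent.RED.BASE.EtaQuot12
open Fermat.Agent.T1B.TestElt79

/-- **W4 (iii), final shape**: `Ū` is a unit at every place of the special fibre of level `M' l`
at which `t̄` is regular. -/
theorem ord_U_eq_zero (l p : ℕ) [NeZero l] (hp : p.Prime) (A : ValuationSubring Qbar)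
    (hA : A.LiesOverPrime p) (M' : ℕ) [NeZero M'] (h4 : 4 ∣ M') (hl : l.Prime)
    (hlM' : ¬ l ∣ M') (hpM'l : ¬ p ∣ M' * l)
    (ht' : tq (IsLocalRing.ResidueField ↥A) 4 8 ∈
      modularFunctionFieldFullC (IsLocalRing.ResidueField ↥A) (M' * l))
    (U : ↥(modularFunctionFieldFullC (IsLocalRing.ResidueField ↥A) (M' * l)))
    (hU : (U : LaurentSeries (IsLocalRing.ResidueField ↥A)) =
      h0S (IsLocalRing.ResidueField ↥A) l)
    (w : Place (IsLocalRing.ResidueField ↥A)
      ↥(modularFunctionFieldFullC (IsLocalRing.ResidueField ↥A) (M' * l)))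
    (hw : (⟨tq (IsLocalRing.ResidueField ↥A) 4 8, ht'⟩ :
      ↥(modularFunctionFieldFullC (IsLocalRing.ResidueField ↥A) (M' * l))) ∈
        w.toValuationSubring) :
    w.ord U = 0 := by
  have hl2 : l ≠ 2 := by
    rintro rfl
    exact hlM' ((show 2 ∣ 4 by norm_num).trans h4)
  have h : 4 * l ∣ M' * l := Nat.mul_dvd_mul_right h4 l
  have htb : ((⟨tq (IsLocalRing.ResidueField ↥A) 4 8, ht'⟩ :
      ↥(modularFunctionFieldFullC (IsLocalRing.ResidueField ↥A) (M' * l))) :
      LaurentSeries (IsLocalRing.ResidueField ↥A)) = tq (IsLocalRing.ResidueField ↥A) 4 8 := rfl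
  exact ord_h0S_eq_zero p hp A hA (M' * l) l hl hl2 h hpM'l w _ U htb hw hU

end Fermat.Agent.T1B.AuxUnit79
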