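/-
Programme T1B (row 38 / S44), cell R2/BRANDT, leaf H0-HUB of R2-FINAL (helper79):
**the chart-`0` test element `h0 = U_4² U_{2q}/(U_2 U_{4q}²)` as the input of `Brandt55.w3_aux_P`**,
in the concrete vocabulary of `Unif77/Concrete` (`B = B0 A q ht ⊂ F = FK (M' q) K`, `O₁ = O1`,
`O₂ = O2`, `π' = algebraMap (AK A K) B0 π`).

* `test0_explicit` : `TestElt79.exists_test0` with the function `h = h0K (M' q) K q _` EXPLICIT;
* `h0K_mem_B0`     : `h0K ∈ B0`;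
* `h0_hub`         : `h0' g0' : B0`, `n`, with `↑h0' = h0K`, `hh : h0' * g0' = π' ^ n`,
  `hinv : (algebraMap B0 F h0')⁻¹ ∈ O1`, `hO₂ : ord O2 (algebraMap B0 F π') (algebraMap B0 F h0') ≠ 0`
  (the literal inputs of `Brandt55.w3_aux_P`).
-/
import Mathlib
import Fermat.Agent.T1B.TestElt79.Main
import Fermat.Agent.T1B.TestElt79.NodeThickness
import Fermat.Agent.T1B.NodeNF37.UnifOrd
import Fermat.Agent.T1.Assembly41.FastInst

set_option autoImplicit false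
set_option linter.unusedSectionVars false
set_option linter.style.haveILetI false

open ModularCurve HahnSeries
open scoped IntermediateField

noncomputable section

namespace Fermat.Agent.T1B.AuxUnit79.HubH0

open Fermat.Agent.X0 Fermat.Agent.RED.Interface4
open Fermat.Agent.RED.BASE.EtaQuot12
open Fermat.Agent.RED.PUR.GaussGen8 Fermat.Agent.RED.PUR.ChartGeneric22
open Fermat.Agent.ES.N34.ModelDefs9 Fermat.Agent.ES.N34.FrickeFK8
open Fermat.Agent.ES.N34.NodalCore13 Fermat.Agent.ES.N34.NumData13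
open Fermat.Agent.ES.N34.SatIntegral18 Fermat.Agent.ES.N34.ModEq23
open Fermat.Agent.T1B.TestElt79
open Fermat.Agent.T1B.NodeNF37.UnifOrd
open scoped Fermat.Agent.T1.Assembly41.FastInst

variable (A : ValuationSubring Qbar) {K : IntermediateField ℚ Qbar} {M' : ℕ} (q : ℕ)
  [NeZero M'] [NeZero q]

/-- **`TestElt79.exists_test0` with the test function explicit**: `h = h0K (M' q) K q _`. -/
theorem test0_explicit (hq : q.Prime) (hq2 : q ≠ 2) (hM : 4 ∣ M')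
    (ht : tq ↥K 4 8 ∈ FK M' K) (hE : FK (M' * q) K ≤ fracField (AK A K))
    {π : ↥(AK A K)} (hπ : IsUnif (AK A K) π)
    (D : NodalNumData ↥(AK A K) ↥K ↥(FK (M' * q) K) π (tN q ht) (B0 A q ht) (B1 A q ht)
      (O1 M' q hπ hE) (O2 M' q hπ hE))
    {n : ℕ} {u : (↥(AK A K))ˣ} (hqπ : ((q : ℕ) : ↥(AK A K)) ^ 12 = π ^ n * u) :
    ∃ h' u2 : ↥(FK (M' * q) K),
      h0K (M' * q) K q (four_mul_dvd q hM) * h' =
        algebraMap ↥(AK A K) ↥(FK (M' * q) K) π ^ n ∧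
      h0K (M' * q) K q (four_mul_dvd q hM) ∈ B0 A q ht ∧ h' ∈ B0 A q ht ∧
      h0K (M' * q) K q (four_mul_dvd q hM) ∈ O1 M' q hπ hE ∧
      (h0K (M' * q) K q (four_mul_dvd q hM))⁻¹ ∈ O1 M' q hπ hE ∧
      u2 ∈ O2 M' q hπ hE ∧ u2⁻¹ ∈ O2 M' q hπ hE ∧
      h0K (M' * q) K q (four_mul_dvd q hM) =
        algebraMap ↥(AK A K) ↥(FK (M' * q) K) π ^ n * u2 := by
  have h4q : 4 * q ∣ M' * q := four_mul_dvd q hM
  obtain ⟨N₀, hN₀⟩ := hM
  have hN : M' * q = 4 * q * N₀ := by rw [hN₀]; ring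
  haveI : NeZero N₀ := ⟨fun h0 => NeZero.ne M' (by rw [hN₀, h0, mul_zero])⟩
  haveI := D.fracR
  have hO1 : h0K (M' * q) K q h4q ∈ O1 M' q hπ hE := by
    rw [mem_O1_iff]
    exact h0S_mem_gaussRing (AK A K) q
  have hinvO1 : h0Kinv (M' * q) K q h4q ∈ O1 M' q hπ hE := by
    rw [mem_O1_iff]
    exact h0Sinv_mem_gaussRing (AK A K) q
  have hwO2 : w0 (M' * q) K q h4q ∈ O2 M' q hπ hE := by
    rw [mem_O2_iff]
    show iotaTwo (M' * q) K (w0 (M' * q) K q h4q) ∈ _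
    rw [iotaTwo_w0 (M' * q) K q N₀ h4q hN]
    exact W0Sinv_mem_gaussRing (AK A K) q N₀
  have hw'O2 : w0' (M' * q) K q h4q ∈ O2 M' q hπ hE := by
    rw [mem_O2_iff]
    show iotaTwo (M' * q) K (w0' (M' * q) K q h4q) ∈ _
    rw [iotaTwo_w0' (M' * q) K q N₀ h4q hN]
    exact W0S_mem_gaussRing (AK A K) q N₀
  have hI : IsIntegral (Algebra.adjoin K {tN q ht}) (h0K (M' * q) K q h4q) :=
    isIntegral_of_coe_eq K _ (coe_tN q ht) (coe_h0K (M' * q) K q h4q)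
      (isIntegral_h0S K q hq hq2)
  have hIinv : IsIntegral (Algebra.adjoin K {tN q ht}) (h0Kinv (M' * q) K q h4q) :=
    isIntegral_of_coe_eq K _ (coe_tN q ht) (coe_h0Kinv (M' * q) K q h4q)
      (isIntegral_h0Sinv K q hq hq2)
  have hcR : algebraMap ↥(AK A K) ↥K (((q : ℕ) : ↥(AK A K)) ^ 12) = (q : K) ^ 12 := by
    rw [map_pow, map_natCast]
  obtain ⟨h', u2, e1, e2, e3, e4, e5, e6, e7⟩ :=
    test_of_data (R := ↥(AK A K)) (K := ↥K) (F := ↥(FK (M' * q) K)) π D.dvrR (tN q ht)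
      (B0 A q ht) (fun x hx => mem_chart_iff.2 hx) (O1 M' q hπ hE) (O2 M' q hπ hE)
      D.model.le_O1_0 D.model.le_O2_0 D.model.sat0 (q12_ne_zero K q)
      (h0K_mul_h0Kinv (M' * q) K q h4q) (w := w0 (M' * q) K q h4q) rfl
      (w' := w0' (M' * q) K q h4q) rfl hI hIinv hO1 hinvO1 hwO2 hw'O2 hcR hqπ
  exact ⟨h', u2, e1, e2, e3, hO1, e4, e5, e6, e7⟩

/-- the chart-`0` test function lies in the chart `B0`. -/
theorem h0K_mem_B0 (hq : q.Prime) (hq2 : q ≠ 2) (hM : 4 ∣ M')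
    (ht : tq ↥K 4 8 ∈ FK M' K) (hE : FK (M' * q) K ≤ fracField (AK A K))
    {π : ↥(AK A K)} (hπ : IsUnif (AK A K) π)
    (D : NodalNumData ↥(AK A K) ↥K ↥(FK (M' * q) K) π (tN q ht) (B0 A q ht) (B1 A q ht)
      (O1 M' q hπ hE) (O2 M' q hπ hE)) :
    h0K (M' * q) K q (four_mul_dvd q hM) ∈ B0 A q ht := by
  have hq0 : ((q : ℕ) : ↥(AK A K)) ^ 12 ≠ 0 := by
    apply pow_ne_zero
    intro h0
    have := congrArg (fun x : ↥(AK A K) => (x : K)) h0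
    simp only [ZeroMemClass.coe_zero] at this
    have h1 : ((q : ℕ) : K) = 0 := by
      rw [← this]
      norm_cast
    exact NeZero.ne q (by exact_mod_cast h1)
  obtain ⟨n, u, hnu⟩ := D.dvrR _ hq0
  obtain ⟨h', u2, -, e2, -⟩ := test0_explicit A q hq hq2 hM ht hE hπ D hnu
  exact e2

/-- **H0-HUB**: the literal inputs `h0 g0 n hh hinv hO₂` of `Brandt55.w3_aux_P` for the concrete
chart `B0` of the nodal model, with `↑h0 = h0K (M' q) K q _` explicit. -/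
theorem h0_hub (hq : q.Prime) (hq2 : q ≠ 2) (hM : 4 ∣ M') (hA : A.LiesOverPrime q)
    (ht : tq ↥K 4 8 ∈ FK M' K) (hE : FK (M' * q) K ≤ fracField (AK A K))
    {π : ↥(AK A K)} (hπ : IsUnif (AK A K) π)
    (D : NodalNumData ↥(AK A K) ↥K ↥(FK (M' * q) K) π (tN q ht) (B0 A q ht) (B1 A q ht)
      (O1 M' q hπ hE) (O2 M' q hπ hE))
    (hU2 : IsUnifFor (O2 M' q hπ hE)
      (algebraMap ↥(B0 A q ht) ↥(FK (M' * q) K) (algebraMap ↥(AK A K) ↥(B0 A q ht) π))) :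
    ∃ (h0' g0' : ↥(B0 A q ht)) (n : ℕ),
      (h0' : ↥(FK (M' * q) K)) = h0K (M' * q) K q (four_mul_dvd q hM) ∧
      h0' * g0' = (algebraMap ↥(AK A K) ↥(B0 A q ht) π) ^ n ∧
      (algebraMap ↥(B0 A q ht) ↥(FK (M' * q) K) h0')⁻¹ ∈ O1 M' q hπ hE ∧
      ord (O2 M' q hπ hE)
        (algebraMap ↥(B0 A q ht) ↥(FK (M' * q) K) (algebraMap ↥(AK A K) ↥(B0 A q ht) π))
        (algebraMap ↥(B0 A q ht) ↥(FK (M' * q) K) h0') ≠ 0 := by
  obtain ⟨n, u, hn1, hnu⟩ := exists_q12_eq A q hA D.dvrR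
  obtain ⟨h', u2, e1, e2, e3, e4, e5, e6, e7, e8⟩ := test0_explicit A q hq hq2 hM ht hE hπ D hnu
  have hπF : algebraMap ↥(B0 A q ht) ↥(FK (M' * q) K) (algebraMap ↥(AK A K) ↥(B0 A q ht) π) =
      algebraMap ↥(AK A K) ↥(FK (M' * q) K) π := rfl
  refine ⟨⟨_, e2⟩, ⟨h', e3⟩, n, rfl, ?_, e5, ?_⟩
  · apply Subtype.ext
    show h0K (M' * q) K q (four_mul_dvd q hM) * h' = _
    rw [e1]
    rfl
  · have hu0 : u2 ≠ 0 := by
      rintro rfl
      rw [mul_zero] at e8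
      have h1 := h0K_mul_h0Kinv (M' * q) K q (four_mul_dvd q hM)
      rw [e8, zero_mul] at h1
      exact zero_ne_one h1
    have key : algebraMap ↥(B0 A q ht) ↥(FK (M' * q) K)
        (⟨h0K (M' * q) K q (four_mul_dvd q hM), e2⟩ : ↥(B0 A q ht)) =
        algebraMap ↥(B0 A q ht) ↥(FK (M' * q) K) (algebraMap ↥(AK A K) ↥(B0 A q ht) π) ^ n * u2 := by
      rw [hπF]
      exact e8
    rw [key, hU2.ord_pow_mul_unit e6 e7 hu0]
    omega

end Fermat.Agent.T1B.AuxUnit79.HubH0
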