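/-
Programme T1B (row 38 / S44), cell R2/BRANDT, leaf H0-HUB of R2-FINAL (helper79), part 2:
**`hD` and the packaged `Brandt55.w3_aux_P` for the reduction `D̄ = h0S κ̄ q` of the chart-`0` test
element**, in the concrete vocabulary of `Unif77/Concrete`.

* `resChart_h0K`  (`hD`) : `resChart (res1K ..) hle ⟨h0K (M' q) K q _, _⟩ = ⟨h0S κ̄ q, _⟩`;
* `w3_aux_h0S`    : the conclusion of `Brandt55.w3_aux_P` for `D̄ = ⟨h0S κ̄ q, _⟩`:
  `∃ c ≠ 0, (∀ e, ord_{v_e} D̄ = c) ∧ ∀ v with a centre on the chart and not a node, ord_v D̄ = 0`.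
-/
import Mathlib
import Fermat.Agent.T1B.AuxUnit79.HubH0
import Fermat.Agent.T1B.Unif77.Concrete
import Fermat.Agent.T1B.Brandt55.Intrinsic
import Fermat.Agent.T1B.AuxUnit33.Gauss

set_option autoImplicit false
set_option linter.unusedSectionVars false
set_option linter.unusedVariables false
set_option linter.style.haveILetI false

open HahnSeries ModularCurve IntermediateField AlgebraicCurve

noncomputable section

namespace Fermat.Agent.T1B.AuxUnit79.HubH0

open Fermat.Agent.X0 Fermat.Agent.RED.Interface4 Fermat.Agent.RED.PUR.GaussGen8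
open Fermat.Agent.RED.PUR.ChartGeneric22
open Fermat.Agent.RED.DESC.PlaceExtend27
open Fermat.Agent.RED.BASE.EtaQuot12
open Fermat.Agent.ES.N34.ModelDefs9 Fermat.Agent.ES.N34.NumData13
open Fermat.Agent.T1B.Hecke3 Fermat.Agent.T1B.GaussW77 Fermat.Agent.T1B.Hol80
open Fermat.Agent.T1B.Brandt96 Fermat.Agent.T1B.Unif77
open Fermat.Agent.T1B.TestElt79
open scoped Fermat.Agent.T1.Assembly41.FastInst

variable {A : ValuationSubring Qbar} {K : IntermediateField ℚ Qbar}
variable (M' q : ℕ) [NeZero M'] [NeZero q] {π : ↥(AK A K)}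
variable (hπ : IsUnif (AK A K) π) (hE : FK (M' * q) K ≤ fracField (AK A K))
  (H : ∀ f : Fbar (M' * q), f ≠ 0 → Normalisable A (coeHom (M' * q) f))
  (hrange : ∀ x : ↥(gaussVal A (coeHom (M' * q)) H),
    gaussResV A (coeHom (M' * q)) H x ∈ modularFunctionFieldFullC (Kap A) M')

/-- **`hD`**: the residue along the branch at `∞` of the chart-`0` test element is the formal
series `h0S κ̄ q`. -/
theorem resChart_h0K (ht : tq ↥K 4 8 ∈ FK M' K) (h4q : 4 * q ∣ M' * q)
    (hmem : h0K (M' * q) K q h4q ∈ B0 A q ht)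
    (hle : ∀ b : ↥(B0 A q ht), algebraMap ↥(B0 A q ht) ↥(FK (M' * q) K) b ∈ O1 M' q hπ hE)
    (hDmem : h0S (Kap A) q ∈ modularFunctionFieldFullC (Kap A) M') :
    resChart (res1K M' q hπ hE H hrange) hle ⟨h0K (M' * q) K q h4q, hmem⟩ =
      ⟨h0S (Kap A) q, hDmem⟩ := by
  apply Subtype.ext
  show gaussResV A (coeHom (M' * q)) H _ = h0S (Kap A) q
  rw [gaussResV_apply]
  exact Fermat.Agent.T1B.AuxUnit33.gaussRes_h0F A (M' * q) q h4q _
    (baseChangeHom_h0K (M' * q) K q h4q)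

section Package

open Fermat.Agent.T1B.Brandt55

/- speed: the canonical `Algebra κ ↥S` instance of an intermediate field, tried first. -/
attribute [local instance 5000] SubalgebraClass.toAlgebra

variable (hq2 : q ≠ 2) (hM : 4 ∣ M') (hA : A.LiesOverPrime q) (ht : tq ↥K 4 8 ∈ FK M' K)
  (hL : NodalNumData ↥(AK A K) ↥K ↥(FK (M' * q) K) π (tN q ht) (B0 A q ht) (B1 A q ht)
    (O1 M' q hπ hE) (O2 M' q hπ hE))
  {Kth : ℕ} (hN : NodalChartHyp (algebraMap ↥(AK A K) ↥(B0 A q ht) π) (O1 M' q hπ hE)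
    (O2 M' q hπ hE) Kth)
  [hqp : Fact q.Prime] [Algebra (ZMod q) (Kap A)]
  (hdeg : ∀ v : Place (Kap A) ↥(modularFunctionFieldFullC (Kap A) M'), v.deg = 1)
  (hDmem : h0S (Kap A) q ∈ modularFunctionFieldFullC (Kap A) M')

include hq2 hM hA hL hdeg in
/-- **`Brandt55.twoBranch_iff` for `D̄ = h0S κ̄ q`**: the node places of the chart are the zeros of
`D̄` on the chart. -/
theorem twoBranch_iff_h0S (v : Place (Kap A) ↥(modularFunctionFieldFullC (Kap A) M')) :
    TwoBranch hN.chart (res1K M' q hπ hE H hrange) v ↔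
      (HasCentre hN.chart (res1K M' q hπ hE H hrange) v ∧
        v.ord (⟨h0S (Kap A) q, hDmem⟩ : ↥(modularFunctionFieldFullC (Kap A) M')) ≠ 0) := by
  haveI := hL.noeth0
  haveI : Algebra.IsAlgebraic (ZMod q) (Kap A) := isAlgebraic_zmod_kap A q
  obtain ⟨h0', g0', n, hcoe, hh, hinv, hO₂⟩ :=
    h0_hub A q hqp.out hq2 hM hA ht hE hπ hL hN.chart.unif₂
  have hD := resChart_h0K M' q hπ hE H hrange ht (four_mul_dvd q hM)
    (hcoe ▸ h0'.2) hN.chart.le₁ hDmem
  have e0 : h0' = ⟨h0K (M' * q) K q (four_mul_dvd q hM), hcoe ▸ h0'.2⟩ := Subtype.ext hcoe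
  rw [← hD, ← e0]
  exact twoBranch_iff hN (res1K M' q hπ hE H hrange)
    (res1K_eq_zero_of_not_isUnit M' q hπ hE H hrange) q hdeg (frac_B0 M' q hπ hE ht hL)
    (adjoin_range_res1K M' q hπ hE H hrange) hh hinv hO₂ v

include hq2 hM hA hL hdeg in
/-- **`Brandt55.w3_aux_P` for `D̄ = h0S κ̄ q`** (`hDE` + `hDoff` with `vE := Subtype.val`). -/
theorem w3_aux_h0S
    {P : Place (Kap A) ↥(modularFunctionFieldFullC (Kap A) M') → Prop}
    (hP : ∀ v : Place (Kap A) ↥(modularFunctionFieldFullC (Kap A) M'),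
      P v ↔ TwoBranch hN.chart (res1K M' q hπ hE H hrange) v)
    [Nonempty {v : Place (Kap A) ↥(modularFunctionFieldFullC (Kap A) M') // P v}] :
    ∃ c : ℤ, c ≠ 0 ∧
      (∀ e : {v : Place (Kap A) ↥(modularFunctionFieldFullC (Kap A) M') // P v},
        e.1.ord (⟨h0S (Kap A) q, hDmem⟩ : ↥(modularFunctionFieldFullC (Kap A) M')) = c) ∧
      ∀ v : Place (Kap A) ↥(modularFunctionFieldFullC (Kap A) M'),
        HasCentre hN.chart (res1K M' q hπ hE H hrange) v →
        (¬ ∃ e : {v : Place (Kap A) ↥(modularFunctionFieldFullC (Kap A) M') // P v}, e.1 = v) →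
        v.ord (⟨h0S (Kap A) q, hDmem⟩ : ↥(modularFunctionFieldFullC (Kap A) M')) = 0 := by
  haveI := hL.noeth0
  haveI : Algebra.IsAlgebraic (ZMod q) (Kap A) := isAlgebraic_zmod_kap A q
  obtain ⟨h0', g0', n, hcoe, hh, hinv, hO₂⟩ :=
    h0_hub A q hqp.out hq2 hM hA ht hE hπ hL hN.chart.unif₂
  have hD := resChart_h0K M' q hπ hE H hrange ht (four_mul_dvd q hM)
    (hcoe ▸ h0'.2) hN.chart.le₁ hDmem
  have e0 : h0' = ⟨h0K (M' * q) K q (four_mul_dvd q hM), hcoe ▸ h0'.2⟩ := Subtype.ext hcoe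
  rw [← hD, ← e0]
  exact w3_aux_P hN (res1K M' q hπ hE H hrange)
    (res1K_eq_zero_of_not_isUnit M' q hπ hE H hrange) q hdeg (frac_B0 M' q hπ hE ht hL)
    (adjoin_range_res1K M' q hπ hE H hrange) hP hh hinv hO₂

end Package

end Fermat.Agent.T1B.AuxUnit79.HubH0
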