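/-
Programme T1B (row 38 / S44), cell R2/BRANDT, leaf H0-HUB of R2-FINAL (helper79), part 3:
**`hDE` in the shape of `Brandt14/AuxDataAsm` (`BF_one_nodeK`, `rhoF_T_nodeK`, `auxDataNodeK`)**:
for ANY predicate `Reg` on the places of `k₁ = FullC κ̄ M'` with `Reg v ↔ HasCentre v` (leaf `hReg-K`),

  `∃ c ≠ 0, ∀ v, Reg v → ord_v D̄ ≠ 0 → ord_v D̄ = c`,   `D̄ = ⟨h0S κ̄ q, _⟩`,

from the concrete node package of `Unif77/Concrete` (hypotheses `hL`, `hN`, `hdeg`) alone.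
-/
import Mathlib
import Fermat.Agent.T1B.AuxUnit79.HubH0Final

set_option autoImplicit false
set_option linter.unusedSectionVars false
set_option linter.unusedVariables false
set_option linter.style.haveILetI false

open HahnSeries ModularCurve IntermediateField AlgebraicCurve

noncomputable section

namespace Fermat.Agent.T1B.AuxUnit79.HubH0

open Fermat.Agent.X0 Fermat.Agent.RED.Interface4 Fermat.Agent.RED.PUR.GaussGen8
open Fermat.Agent.RED.PUR.ChartGeneric22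
open Fermat.Agent.RED.DESC.PlaceExtend27
open Fermat.Agent.RED.BASE.EtaQuot12
open Fermat.Agent.ES.N34.ModelDefs9 Fermat.Agent.ES.N34.NumData13
open Fermat.Agent.T1B.Hecke3 Fermat.Agent.T1B.GaussW77 Fermat.Agent.T1B.Hol80
open Fermat.Agent.T1B.Brandt96 Fermat.Agent.T1B.Unif77 Fermat.Agent.T1B.Brandt55
open Fermat.Agent.T1B.TestElt79
open scoped Fermat.Agent.T1.Assembly41.FastInst

/- speed: the canonical `Algebra κ ↥S` instance of an intermediate field, tried first. -/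
attribute [local instance 5000] SubalgebraClass.toAlgebra

variable {A : ValuationSubring Qbar} {K : IntermediateField ℚ Qbar}
variable (M' q : ℕ) [NeZero M'] [NeZero q] {π : ↥(AK A K)}
variable (hπ : IsUnif (AK A K) π) (hE : FK (M' * q) K ≤ fracField (AK A K))
  (H : ∀ f : Fbar (M' * q), f ≠ 0 → Normalisable A (coeHom (M' * q) f))
  (hrange : ∀ x : ↥(gaussVal A (coeHom (M' * q)) H),
    gaussResV A (coeHom (M' * q)) H x ∈ modularFunctionFieldFullC (Kap A) M')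
  (hq2 : q ≠ 2) (hM : 4 ∣ M') (hA : A.LiesOverPrime q) (ht : tq ↥K 4 8 ∈ FK M' K)
  (hL : NodalNumData ↥(AK A K) ↥K ↥(FK (M' * q) K) π (tN q ht) (B0 A q ht) (B1 A q ht)
    (O1 M' q hπ hE) (O2 M' q hπ hE))
  {Kth : ℕ} (hN : NodalChartHyp (algebraMap ↥(AK A K) ↥(B0 A q ht) π) (O1 M' q hπ hE)
    (O2 M' q hπ hE) Kth)
  [hqp : Fact q.Prime] [Algebra (ZMod q) (Kap A)]
  (hdeg : ∀ v : Place (Kap A) ↥(modularFunctionFieldFullC (Kap A) M'), v.deg = 1)
  (hDmem : h0S (Kap A) q ∈ modularFunctionFieldFullC (Kap A) M')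

include hq2 hM hA hL hdeg in
/-- **`hDE`**: the auxiliary function `D̄ = h0S κ̄ q` has ONE nonzero order at all its zeros/poles on
the chart. -/
theorem hDE_h0S (Reg : Place (Kap A) ↥(modularFunctionFieldFullC (Kap A) M') → Prop)
    (hReg : ∀ v : Place (Kap A) ↥(modularFunctionFieldFullC (Kap A) M'),
      Reg v ↔ HasCentre hN.chart (res1K M' q hπ hE H hrange) v) :
    ∃ c : ℤ, c ≠ 0 ∧ ∀ v : Place (Kap A) ↥(modularFunctionFieldFullC (Kap A) M'),
      Reg v →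
      v.ord (⟨h0S (Kap A) q, hDmem⟩ : ↥(modularFunctionFieldFullC (Kap A) M')) ≠ 0 →
      v.ord (⟨h0S (Kap A) q, hDmem⟩ : ↥(modularFunctionFieldFullC (Kap A) M')) = c := by
  have hP : ∀ v : Place (Kap A) ↥(modularFunctionFieldFullC (Kap A) M'),
      (Reg v ∧
        v.ord (⟨h0S (Kap A) q, hDmem⟩ : ↥(modularFunctionFieldFullC (Kap A) M')) ≠ 0) ↔
        TwoBranch hN.chart (res1K M' q hπ hE H hrange) v := by
    intro v
    rw [twoBranch_iff_h0S M' q hπ hE H hrange hq2 hM hA ht hL hN hdeg hDmem v, hReg v]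
  by_cases hne : Nonempty {v : Place (Kap A) ↥(modularFunctionFieldFullC (Kap A) M') //
      Reg v ∧ v.ord (⟨h0S (Kap A) q, hDmem⟩ : ↥(modularFunctionFieldFullC (Kap A) M')) ≠ 0}
  · obtain ⟨c, hc, hDE, -⟩ :=
      w3_aux_h0S M' q hπ hE H hrange hq2 hM hA ht hL hN hdeg hDmem hP
    exact ⟨c, hc, fun v hv hv0 => hDE ⟨v, hv, hv0⟩⟩
  · exact ⟨1, one_ne_zero, fun v hv hv0 => absurd ⟨⟨v, hv, hv0⟩⟩ hne⟩

end Fermat.Agent.T1B.AuxUnit79.HubH0
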