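/-
Programme T1B (row 38 / S44), cell R2/BRANDT, leaf H0-HUB of R2-FINAL (helper79), part 4:
**`hDE` with the literal `Brandt14` binders** (`RegK`, `DK`; `H := (Brandt57.HDF A p M').norm`,
`hrange := Brandt57.hrangeF`), `A` a general valuation ring of `ℚ̄` over `p`:

  `hDE_K : ∃ c ≠ 0, ∀ v, RegK v → ord_v DK ≠ 0 → ord_v DK = c`

= the hypothesis `hDE` of `Brandt14.BF_one_nodeK` / `rhoF_T_nodeK` / `auxDataNodeK`, from the concrete
node package of `Unif77/Concrete` at a number-field level `K` and the leaf `hReg-K`.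
-/
import Mathlib
import Fermat.Agent.T1B.AuxUnit79.HubHDE
import Fermat.Agent.T1B.Brandt14.AuxTerms
import Fermat.Agent.T1B.Brandt57.Final

set_option autoImplicit false
set_option linter.unusedSectionVars false
set_option linter.unusedVariables false
set_option linter.style.haveILetI false

open HahnSeries ModularCurve IntermediateField AlgebraicCurve

noncomputable section

namespace Fermat.Agent.T1B.AuxUnit79.HubH0

open Fermat.Agent.X0 Fermat.Agent.RED.Interface4 Fermat.Agent.RED.PUR.GaussGen8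
open Fermat.Agent.RED.PUR.ChartGeneric22
open Fermat.Agent.RED.DESC.PlaceExtend27
open Fermat.Agent.RED.BASE.EtaQuot12
open Fermat.Agent.ES.N34.ModelDefs9 Fermat.Agent.ES.N34.NumData13
open Fermat.Agent.T1B.Hecke3 Fermat.Agent.T1B.GaussW77 Fermat.Agent.T1B.Hol80
open Fermat.Agent.T1B.Brandt96 Fermat.Agent.T1B.Unif77 Fermat.Agent.T1B.Brandt55
open Fermat.Agent.T1B.TestElt79
open scoped Fermat.Agent.T1.Assembly41.FastInst

/- speed: the canonical `Algebra κ ↥S` instance of an intermediate field, tried first. -/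
attribute [local instance 5000] SubalgebraClass.toAlgebra

variable (A : ValuationSubring Qbar) (p : ℕ) [hp : Fact p.Prime] (hA : A.LiesOverPrime p)
  (M' : ℕ) [NeZero M'] [NeZero p] [NeZero (M' * p)] (hpM' : ¬ p ∣ M') (hM' : 4 ∣ M')

include hpM' hM' in
theorem prime_ne_two_of_four_dvd : p ≠ 2 := by
  rintro rfl
  exact hpM' ((by norm_num : (2 : ℕ) ∣ 4).trans hM')

/-- **`hDE` in `Brandt14`'s binders.** -/
theorem hDE_K [CharP (Kap A) p] {K : IntermediateField ℚ Qbar} {π : ↥(AK A K)}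
    (hπ : IsUnif (AK A K) π) (hE : FK (M' * p) K ≤ fracField (AK A K))
    (ht : tq ↥K 4 8 ∈ FK M' K)
    (hL : NodalNumData ↥(AK A K) ↥K ↥(FK (M' * p) K) π (tN p ht) (B0 A p ht) (B1 A p ht)
      (O1 M' p hπ hE) (O2 M' p hπ hE))
    {Kth : ℕ} (hN : NodalChartHyp (algebraMap ↥(AK A K) ↥(B0 A p ht) π) (O1 M' p hπ hE)
      (O2 M' p hπ hE) Kth)
    (hdeg : ∀ v : Place (Kap A) ↥(modularFunctionFieldFullC (Kap A) M'), v.deg = 1)
    (hReg : ∀ v : Place (Kap A) ↥(modularFunctionFieldFullC (Kap A) M'),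
      Fermat.Agent.T1B.Brandt14.RegK A hA M' hpM' hM' v ↔
        HasCentre hN.chart (res1K M' p hπ hE (Fermat.Agent.T1B.Brandt57.HDF A p M').norm
          (Fermat.Agent.T1B.Brandt57.hrangeF A p hA M' hpM' hM')) v) :
    ∃ c : ℤ, c ≠ 0 ∧ ∀ v : Place (Kap A) ↥(modularFunctionFieldFullC (Kap A) M'),
      Fermat.Agent.T1B.Brandt14.RegK A hA M' hpM' hM' v →
      v.ord (Fermat.Agent.T1B.Brandt14.DK A hA M' hpM' hM') ≠ 0 →
      v.ord (Fermat.Agent.T1B.Brandt14.DK A hA M' hpM' hM') = c := by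
  letI : Algebra (ZMod p) (Kap A) := ZMod.algebra (Kap A) p
  exact hDE_h0S M' p hπ hE (Fermat.Agent.T1B.Brandt57.HDF A p M').norm
    (Fermat.Agent.T1B.Brandt57.hrangeF A p hA M' hpM' hM')
    (prime_ne_two_of_four_dvd p M' hpM' hM') hM' hA ht hL hN hdeg
    (Fermat.Agent.T1B.AuxUnit33.h0S_self_mem_fullC A hp.out hA M' hM' hpM')
    (Fermat.Agent.T1B.Brandt14.RegK A hA M' hpM' hM') hReg

/-- `res1K` at `H := HDF.norm`, `hrange := hrangeF` is `Brandt57.res1` after the inclusion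
`O1 → V1` (definitional). -/
theorem res1K_eq_res1_comp [CharP (Kap A) p] {K : IntermediateField ℚ Qbar} {π : ↥(AK A K)}
    (hπ : IsUnif (AK A K) π) (hE : FK (M' * p) K ≤ fracField (AK A K)) :
    res1K M' p hπ hE (Fermat.Agent.T1B.Brandt57.HDF A p M').norm
        (Fermat.Agent.T1B.Brandt57.hrangeF A p hA M' hpM' hM') =
      (Fermat.Agent.T1B.Brandt57.res1 A p (M' * p) M' (Fermat.Agent.T1B.Brandt57.HDF A p M')
        (Fermat.Agent.T1B.Brandt57.hrangeF A p hA M' hpM' hM')).comp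
        (valHom (baseChangeHom (M' * p) K) (O1 M' p hπ hE)
          (Fermat.Agent.T1B.Brandt57.V1 A p (M' * p) (Fermat.Agent.T1B.Brandt57.HDF A p M'))
          (mem_gaussVal_of_mem_O1 M' p hπ hE (Fermat.Agent.T1B.Brandt57.HDF A p M').norm)) :=
  rfl

end Fermat.Agent.T1B.AuxUnit79.HubH0
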