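/-
Programme T1B (row 38 / S44), cell R2/BRANDT, NODE-EXISTS (helper79), part 1:
**the Gauss lemma for `K(t)` over an ARBITRARY valuation ring** (not necessarily discrete), in the
`Hecke3/GaussVal` vocabulary (`IsIntRep`, `gaussSub`, `gaussRes`, `embA`, `redA`):

if `tF ∈ F` has an integral expansion `e tF = embA tA` whose reduction `t̄ = redA tA` is
transcendental over `κ = Kap A`, then every Gauss-integral element `u` of `K(tF) ⊂ F` has residue
`gaussRes u ∈ κ(t̄)`.

* `exists_scaling`      : two polynomials over `K`, not both `0`, can be scaled into `A[X]` with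
                          reductions not both `0`;
* `gaussRes_mem_adjoin` : the statement above.
-/
import Mathlib
import Fermat.Agent.T1B.Hecke3.GaussVal

set_option autoImplicit false
set_option linter.unusedSectionVars false

noncomputable section

namespace Fermat.Agent.T1B.AuxUnit79.KtRes

open Polynomial HahnSeries ModularCurve IntermediateField
open Fermat.Agent.T1B.Hecke3

variable {K : Type*} [Field K] (A : ValuationSubring K)

/-- **Scaling into `A[X]`**: two polynomials over `K`, not both zero, can be multiplied by one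
nonzero constant so that both have coefficients in `A` and one of them has a unit coefficient. -/
theorem exists_scaling (P Q : K[X]) (hPQ : P ≠ 0 ∨ Q ≠ 0) :
    ∃ (c : K) (PA QA : (↥A)[X]), c ≠ 0 ∧ PA.map A.subtype = Polynomial.C c * P ∧
      QA.map A.subtype = Polynomial.C c * Q ∧
      (PA.map (IsLocalRing.residue ↥A) ≠ 0 ∨ QA.map (IsLocalRing.residue ↥A) ≠ 0) := by
  classical
  -- the finite set of all coefficients
  set S : Finset K := P.coeffs ∪ Q.coeffs with hS
  have hSne : S.Nonempty := by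
    rcases hPQ with h | h
    · obtain ⟨x, hx⟩ := (Polynomial.coeffs_nonempty_iff.2 h)
      exact ⟨x, Finset.mem_union_left _ hx⟩
    · obtain ⟨x, hx⟩ := (Polynomial.coeffs_nonempty_iff.2 h)
      exact ⟨x, Finset.mem_union_right _ hx⟩
  obtain ⟨x₀, hx₀S, hmax⟩ := Finset.exists_max_image S (fun x => A.valuation x) hSne
  have hcne : ∀ (R : K[X]) (x : K), x ∈ R.coeffs → x ≠ 0 := by
    intro R x hx
    obtain ⟨n, hn, rfl⟩ := Polynomial.mem_coeffs_iff.1 hx
    exact Polynomial.mem_support_iff.1 hn
  have hx₀ : x₀ ≠ 0 := by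
    rcases Finset.mem_union.1 hx₀S with h | h
    · exact hcne P x₀ h
    · exact hcne Q x₀ h
  have hmem : ∀ (R : K[X]), R.coeffs ⊆ S → ∀ i, x₀⁻¹ * R.coeff i ∈ A := by
    intro R hR i
    by_cases h0 : R.coeff i = 0
    · rw [h0, mul_zero]; exact A.zero_mem
    · have hi : R.coeff i ∈ S := hR (Polynomial.coeff_mem_coeffs h0)
      rw [← A.valuation_le_one_iff, map_mul, map_inv₀]
      have h1 := hmax _ hi
      have hv0 : A.valuation x₀ ≠ 0 := (Valuation.ne_zero_iff _).2 hx₀
      rw [inv_mul_le_iff₀ (zero_lt_iff.2 hv0), mul_one]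
      exact h1
  have hlift : ∀ (R : K[X]), R.coeffs ⊆ S → ∃ RA : (↥A)[X], RA.map A.subtype = Polynomial.C x₀⁻¹ * R := by
    intro R hR
    have : Polynomial.C x₀⁻¹ * R ∈ Polynomial.lifts A.subtype := by
      rw [Polynomial.lifts_iff_coeff_lifts]
      intro i
      rw [Polynomial.coeff_C_mul]
      exact ⟨⟨_, hmem R hR i⟩, rfl⟩
    exact (Polynomial.mem_lifts _).1 this
  obtain ⟨PA, hPA⟩ := hlift P Finset.subset_union_left
  obtain ⟨QA, hQA⟩ := hlift Q Finset.subset_union_right
  refine ⟨x₀⁻¹, PA, QA, inv_ne_zero hx₀, hPA, hQA, ?_⟩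
  -- the coefficient `x₀` becomes `1`
  have hone : ∀ (R : K[X]) (RA : (↥A)[X]), RA.map A.subtype = Polynomial.C x₀⁻¹ * R → x₀ ∈ R.coeffs →
      RA.map (IsLocalRing.residue ↥A) ≠ 0 := by
    intro R RA hRA hx
    obtain ⟨i, -, hi⟩ := Polynomial.mem_coeffs_iff.1 hx
    intro h0
    have h1 : (RA.coeff i : K) = 1 := by
      have := congrArg (fun T : K[X] => T.coeff i) hRA
      simp only [Polynomial.coeff_map] at this
      rw [Polynomial.coeff_C_mul] at this
      rw [show (A.subtype (RA.coeff i) : K) = (RA.coeff i : K) from rfl] at this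
      rw [this, ← hi, inv_mul_cancel₀ hx₀]
    have h2 : RA.coeff i = 1 := Subtype.ext h1
    have h3 := congrArg (fun T : (IsLocalRing.ResidueField ↥A)[X] => T.coeff i) h0
    simp only [Polynomial.coeff_map, Polynomial.coeff_zero, h2, map_one] at h3
    exact one_ne_zero h3
  rcases Finset.mem_union.1 hx₀S with h | h
  · exact Or.inl (hone P PA hPA h)
  · exact Or.inr (hone Q QA hQA h)

variable {A}
variable {F : Type*} [Field F] [Algebra K F] {e : F →+* LaurentSeries K}

/-- evaluation of an integral polynomial at an integral series, inside `A((q))`. -/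
def evalA (tA : LaurentSeries ↥A) (P : (↥A)[X]) : LaurentSeries ↥A :=
  P.eval₂ (HahnSeries.C : ↥A →+* LaurentSeries ↥A) tA

theorem embA_evalA (tA : LaurentSeries ↥A) (P : (↥A)[X]) :
    embA A (evalA tA P) =
      (P.map A.subtype).eval₂ (HahnSeries.C : K →+* LaurentSeries K) (embA A tA) := by
  unfold evalA
  rw [Polynomial.hom_eval₂, Polynomial.eval₂_map]
  congr 1
  ext1 c
  show embA A (HahnSeries.C c) = HahnSeries.C (A.subtype c)
  exact coeffMap_C' A.subtype c

theorem redA_evalA (tA : LaurentSeries ↥A) (P : (↥A)[X]) :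
    redA A (evalA tA P) =
      (P.map (IsLocalRing.residue ↥A)).eval₂
        (HahnSeries.C : Kap A →+* LaurentSeries (Kap A)) (redA A tA) := by
  unfold evalA
  rw [Polynomial.hom_eval₂, Polynomial.eval₂_map]
  congr 1
  ext1 c
  show redA A (HahnSeries.C c) = HahnSeries.C (IsLocalRing.residue ↥A c)
  exact coeffMap_C' (IsLocalRing.residue ↥A) c

theorem eval₂_C_eq_aeval {κ : Type*} [Field κ] (y : LaurentSeries κ) (P : κ[X]) :
    P.eval₂ (HahnSeries.C : κ →+* LaurentSeries κ) y = Polynomial.aeval y P := by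
  rw [Polynomial.aeval_def]
  congr 1
  ext1 c
  rw [ModularCurve.algebraMap_laurentSeries_eq_single]
  rfl

/-- **The Gauss lemma for `K(t)`, residue form.** -/
theorem gaussRes_mem_adjoin (hι : ∀ c : K, e (algebraMap K F c) = HahnSeries.C c) (tF : F)
    (tA : LaurentSeries ↥A) (htF : e tF = embA A tA)
    (htr : Transcendental (Kap A) (redA A tA)) (u : gaussSub A e) (hu : (u : F) ∈ K⟮tF⟯) :
    gaussRes A e u ∈ (Kap A)⟮redA A tA⟯ := by
  obtain ⟨P, Q, hPQ⟩ := (IntermediateField.mem_adjoin_simple_iff K (u : F)).1 hu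
  -- reduce to `Q(tF) ≠ 0`
  by_cases hQ0 : Polynomial.aeval tF Q = 0
  · have hu0 : (u : F) = 0 := by rw [hPQ, hQ0, div_zero]
    have : u = 0 := Subtype.ext hu0
    rw [this, map_zero]
    exact zero_mem _
  have hQne : Q ≠ 0 := by
    rintro rfl
    exact hQ0 (map_zero _)
  have hrel : (u : F) * Polynomial.aeval tF Q = Polynomial.aeval tF P := by
    rw [hPQ, div_mul_cancel₀ _ hQ0]
  obtain ⟨c, PA, QA, hc, hPA, hQA, hred⟩ := exists_scaling A P Q (Or.inr hQne)
  -- push the relation through `e`
  have he : ∀ R : K[X], e (Polynomial.aeval tF R) =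
      R.eval₂ (HahnSeries.C : K →+* LaurentSeries K) (e tF) := by
    intro R
    rw [Polynomial.aeval_def, Polynomial.hom_eval₂]
    congr 1
    ext1 x
    exact hι x
  have hrelA : e (u : F) * embA A (evalA tA QA) = embA A (evalA tA PA) := by
    rw [embA_evalA, embA_evalA, hPA, hQA, ← htF, Polynomial.eval₂_mul, Polynomial.eval₂_mul,
      Polynomial.eval₂_C, ← he, ← he, ← hrel, map_mul]
    ring
  obtain ⟨a, s, hrep⟩ := u.2
  have hmul : a * evalA tA QA = s * evalA tA PA := by
    apply embA_injective A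
    rw [map_mul, map_mul, ← hrep.2, ← hrelA]
    ring
  have hmulred := congrArg (redA A) hmul
  rw [map_mul, map_mul, redA_evalA, redA_evalA, eval₂_C_eq_aeval, eval₂_C_eq_aeval] at hmulred
  rw [gaussRes_eq hrep]
  set Pb := PA.map (IsLocalRing.residue ↥A) with hPb
  set Qb := QA.map (IsLocalRing.residue ↥A) with hQb
  by_cases hQb0 : Qb = 0
  · -- impossible: then `P̄ ≠ 0` and `P̄(t̄) = 0`
    exfalso
    have hPb0 : Pb ≠ 0 := hred.resolve_right (not_not.2 hQb0)
    rw [hQb0, map_zero, mul_zero] at hmulred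
    have h1 : Polynomial.aeval (redA A tA) Pb = 0 := by
      rcases mul_eq_zero.1 hmulred.symm with h | h
      · exact absurd h hrep.1
      · exact h
    exact htr ⟨Pb, hPb0, h1⟩
  · have hQt : Polynomial.aeval (redA A tA) Qb ≠ 0 := fun h => htr ⟨Qb, hQb0, h⟩
    have : redA A a / redA A s =
        Polynomial.aeval (redA A tA) Pb / Polynomial.aeval (redA A tA) Qb := by
      rw [div_eq_div_iff hrep.1 hQt, hmulred, mul_comm]
    rw [this]
    exact (IntermediateField.mem_adjoin_simple_iff _ _).2 ⟨Pb, Qb, rfl⟩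

end Fermat.Agent.T1B.AuxUnit79.KtRes
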